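import Fermat.Agent.S19.Weil.Ev
import Fermat.Agent.GAL.FF.RH.Approx

/-!
# S19 block W, leaf W9: the moving lemma.
-/

set_option autoImplicit false

namespace Fermat.Agent.S19.Weil

open AlgebraicCurve Fermat.Agent.Lib.RR

variable {K F : Type*} [Field K] [IsAlgClosed K] [Field F] [Algebra K F] [IsFF K F]

/-- Prescribed orders at finitely many places.  For `P` choose `t P` with `ord_P (t P) = 1`
(`IsDiscreteValuationRing.exists_irreducible`, `Place.ord_coe_irreducible`), apply
`FF.exists_weak_approx S (fun P => t P ^ n P) (fun P => n P + 1)` and `RED.ord_add_eq_of_lt`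
(`Place.ord_zpow`).  If `S = ∅` take `h = 1`. -/
theorem exists_ord_eq (S : Finset (Place K F)) (n : Place K F → ℤ) :
    ∃ h : F, h ≠ 0 ∧ ∀ P ∈ S, P.ord h = n P := by
  classical
  have hex : ∀ P : Place K F, ∃ t : F, P.ord t = 1 := by
    intro P
    obtain ⟨π, hπ⟩ := IsDiscreteValuationRing.exists_irreducible P.toValuationSubring
    exact ⟨π, P.ord_coe_irreducible hπ⟩
  choose t ht using hex
  have ht0 : ∀ P, t P ≠ 0 := by
    intro P h
    have h1 := ht P
    rw [h] at h1
    simp [Place.ord] at h1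
  have ha0 : ∀ P, t P ^ n P ≠ 0 := fun P => zpow_ne_zero _ (ht0 P)
  have hao : ∀ P : Place K F, P.ord (t P ^ n P) = n P := by
    intro P
    rw [P.ord_zpow, ht P, mul_one]
  obtain ⟨z, hz⟩ := Fermat.Agent.GAL.FF.exists_weak_approx S (fun P => t P ^ n P)
    (fun P => n P + 1)
  have key : ∀ P ∈ S, z ≠ 0 ∧ P.ord z = n P := by
    intro P hP
    rcases hz P hP with h | h
    · have h' : t P ^ n P = z := h
      rw [← h']
      exact ⟨ha0 P, hao P⟩
    · have h' : n P + 1 ≤ P.ord (t P ^ n P - z) := h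
      by_cases hza : t P ^ n P = z
      · rw [← hza]
        exact ⟨ha0 P, hao P⟩
      · have hg : -(t P ^ n P - z) ≠ 0 := neg_ne_zero.2 (sub_ne_zero.2 hza)
        have hlt : P.ord (t P ^ n P) < P.ord (-(t P ^ n P - z)) := by
          rw [Fermat.Agent.GAL.RED.ord_neg, hao P]
          omega
        have h2 := Fermat.Agent.GAL.RED.ord_add_eq_of_lt P (ha0 P) hg hlt
        have h3 : t P ^ n P + -(t P ^ n P - z) = z := by ring
        rw [h3, hao P] at h2
        refine ⟨?_, h2⟩
        rintro rfl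
        rw [sub_zero, hao P] at h'
        omega
  rcases S.eq_empty_or_nonempty with rfl | ⟨P₀, hP₀⟩
  · exact ⟨1, one_ne_zero, fun P hP => absurd hP (Finset.notMem_empty P)⟩
  · exact ⟨z, (key P₀ hP₀).1, fun P hP => (key P hP).2⟩

/-- Every divisor can be moved away from a finite set of places. -/
theorem exists_move (D : Divisor K F) (S : Finset (Place K F)) :
    ∃ h : F, h ≠ 0 ∧ ∀ P ∈ S, (D + divOf (K := K) h) P = 0 := by
  obtain ⟨h, h0, hh⟩ := exists_ord_eq S (fun P => -D P)
  refine ⟨h, h0, fun P hP => ?_⟩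
  rw [Finsupp.add_apply, divOf_apply, hh P hP, add_neg_cancel]

end Fermat.Agent.S19.Weil
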