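import Fermat.Agent.GAL.RED.PoleDegLe
import Fermat.Agent.GAL.FF.RH.Rational

/-!
# S19 block W, leaf W3: a function field is finite over `K(g)` for every non constant `g`.
-/

set_option autoImplicit false

namespace Fermat.Agent.S19.Weil

open AlgebraicCurve Fermat.Agent.Lib.RR Fermat.Agent.GAL.RED IntermediateField

variable {K F : Type*} [Field K] [Field F] [Algebra K F] [IsFF K F] [IsAlgClosed K]

/-- A family which is linearly independent over `K(g)` is `PolyIndep K g`
(`aeval g p = algebraMap K⟮g⟯ F ⟨aeval g p, _⟩`; `g` transcendental so `aeval g p = 0 → p = 0`). -/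
theorem polyIndep_of_linearIndependent {g : F} (hg : Transcendental K g) {n : ℕ} (z : Fin n → F)
    (hz : LinearIndependent K⟮g⟯ z) : PolyIndep K g z := by
  intro p hp
  have hmem : ∀ i, Polynomial.aeval g (p i) ∈ K⟮g⟯ := by
    intro i
    rw [IntermediateField.mem_adjoin_simple_iff]
    exact ⟨p i, 1, by simp⟩
  have h0 : ∑ i, (⟨Polynomial.aeval g (p i), hmem i⟩ : K⟮g⟯) • z i = 0 := by
    rw [← hp]
    rfl
  have h1 := Fintype.linearIndependent_iff.1 hz _ h0
  funext i
  have h2 : Polynomial.aeval g (p i) = 0 := congrArg Subtype.val (h1 i)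
  exact (transcendental_iff.1 hg) (p i) h2

/-- `card_le_degree_poleDiv` bounds the cardinality of `K(g)`-independent families, hence
`Module.rank K⟮g⟯ F < ℵ₀` (`rank_le`, `Module.rank_lt_aleph0_iff` / `Module.finite_of_rank_...`). -/
theorem finiteDimensional_adjoin {g : F} (hg : Transcendental K g) : FiniteDimensional K⟮g⟯ F := by
  have hle : Module.rank K⟮g⟯ F ≤ ((Divisor.degree (poleDiv (K := K) g)).toNat : ℕ) := by
    apply rank_le
    intro s hs
    have hz : LinearIndependent K⟮g⟯ (fun j : Fin s.card => ((s.equivFin.symm j : s) : F)) :=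
      hs.comp _ s.equivFin.symm.injective
    have h1 := card_le_degree_poleDiv g _ (polyIndep_of_linearIndependent hg _ hz)
    omega
  exact Module.rank_lt_aleph0_iff.1 (lt_of_le_of_lt hle (Cardinal.natCast_lt_aleph0))

/-- non constant functions are transcendental (`K` is algebraically closed). -/
theorem transcendental_of_not_mem_range {g : F} (hg : g ∉ Set.range (algebraMap K F)) :
    Transcendental K g := by
  intro halg
  have hint : IsIntegral K g := halg.isIntegral
  exact hg (minpoly.mem_range_of_degree_eq_one K g
    (IsAlgClosed.degree_eq_one_of_irreducible K (minpoly.irreducible hint)))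

/-- `F / K(g)` is algebraic (`finiteDimensional_adjoin`) and `K(g)` has characteristic zero
(`charZero_of_injective_algebraMap`), hence is perfect:
`Algebra.IsAlgebraic.isSeparable_of_perfectField`. -/
theorem isSeparable_adjoin [CharZero K] {g : F} (hg : Transcendental K g) :
    Algebra.IsSeparable K⟮g⟯ F := by
  have := finiteDimensional_adjoin hg
  have : CharZero K⟮g⟯ := charZero_of_injective_algebraMap (algebraMap K K⟮g⟯).injective
  exact Algebra.IsAlgebraic.isSeparable_of_perfectField

end Fermat.Agent.S19.Weil
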