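import Fermat.Agent.S19.Weil.Ev
import Fermat.Prelude.Def_AlgebraicCurve_BaseChangeGalois

/-!
# S19 block W, leaf W2: evaluation is compatible with semilinear automorphisms.
`(g f)(g P) = g (f (P))`.
-/

set_option autoImplicit false

namespace Fermat.Agent.S19.Weil

open AlgebraicCurve Fermat.Agent.Lib.RR

variable {K F : Type*} [Field K] [Field F] [Algebra K F] [IsFF K F] [IsAlgClosed K]

/-- Use `ev_eq_iff`: `f - a` has positive order at `P` iff `g f - g a` has positive order at `g P`
(`SemilinearAut.ord_smul`, `SemilinearAut.smul_algebraMap`); if `f ∉ O_P` both sides are `0`. -/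
theorem ev_smul (g : SemilinearAut K F) (P : Place K F) (f : F) :
    ev (g • P) (g • f) = SemilinearAut.baseAut g (ev P f) := by
  by_cases hf : f ∈ P.toValuationSubring
  · have hgf : g • f ∈ (g • P).toValuationSubring :=
      ValuationSubring.smul_mem_pointwise_smul g f P.toValuationSubring hf
    rw [ev_eq_iff (g • P) hgf]
    rcases ord_sub_ev_pos P hf with h | h
    · left
      have h2 : g • f = g • algebraMap K F (ev P f) := congrArg (fun y => g • y) h
      rw [SemilinearAut.smul_algebraMap] at h2
      exact h2
    · right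
      rw [← SemilinearAut.smul_algebraMap, ← smul_sub, SemilinearAut.ord_smul]
      exact h
  · have h1 : P.ord f < 0 := by
      by_contra hcon
      exact hf ((mem_iff_ord P f).mpr (Or.inr (not_lt.mp hcon)))
    rw [ev_eq_zero_of_ord_neg P h1, map_zero]
    apply ev_eq_zero_of_ord_neg
    rw [SemilinearAut.ord_smul]
    exact h1

theorem evU_smul (g : SemilinearAut K F) (P : Place K F) (f : F) :
    evU (g • P) (g • f) = Units.map (SemilinearAut.baseAut g : K →* K) (evU P f) := by
  by_cases h : ev P f ≠ 0
  · have h' : ev (g • P) (g • f) ≠ 0 := by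
      rw [ev_smul]
      exact (map_ne_zero (SemilinearAut.baseAut g)).mpr h
    unfold evU
    rw [dif_pos h, dif_pos h']
    ext
    exact ev_smul g P f
  · have h' : ¬ ev (g • P) (g • f) ≠ 0 := by
      rw [ev_smul]
      intro h2
      exact h ((map_ne_zero (SemilinearAut.baseAut g)).mp h2)
    unfold evU
    rw [dif_neg h, dif_neg h', map_one]

/-- `g • D = Finsupp.mapDomain (g • ·) D` (`SemilinearAut.divisor_smul_def`), `g • ·` injective:
`Finsupp.prod_mapDomain_index_inj`. -/
theorem evD_smul (g : SemilinearAut K F) (f : F) (D : Divisor K F) :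
    evD (g • f) (g • D) = Units.map (SemilinearAut.baseAut g : K →* K) (evD f D) := by
  unfold evD
  rw [SemilinearAut.divisor_smul_def, Finsupp.prod_mapDomain_index_inj (MulAction.injective g),
    Finsupp.prod, Finsupp.prod, map_prod]
  refine Finset.prod_congr rfl fun P _ => ?_
  rw [evU_smul, map_zpow]

omit [IsAlgClosed K] in
theorem divOf_smul (g : SemilinearAut K F) (f : F) :
    divOf (K := K) (g • f) = g • divOf (K := K) f := by
  ext w
  rw [divOf_apply, SemilinearAut.divisor_smul_apply, divOf_apply]
  have h := SemilinearAut.ord_smul g (g⁻¹ • w) f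
  rw [smul_inv_smul] at h
  exact h

end Fermat.Agent.S19.Weil
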