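import Fermat.Agent.S19.Weil.PairAux
import Fermat.Agent.S19.Weil.EvGal

/-!
# S19 block W, OUTPUT: the Weil pairing `weil m : Pic0[m] × Pic0[m] → μ_m(K)`.

`K` algebraically closed of characteristic zero, `F / K` a function field (`IsFF`).
* `weil_eq`        : `weil m x y = f(E) / g(D)` for ANY representatives `(D,f)`, `(E,g)` of `x`, `y`
                     (`div f = m D`, `div g = m E`) with disjoint supports;
* `weil_add_left`, `weil_add_right`, `weil_pow`, `weil_swap`;
* `weil_smul`      : equivariance under semilinear automorphisms (Galois action).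
-/

set_option autoImplicit false
set_option linter.unusedSectionVars false

namespace Fermat.Agent.S19.Weil

open AlgebraicCurve Fermat.Agent.Lib.RR

variable {K F : Type*} [Field K] [IsAlgClosed K] [CharZero K] [Field F] [Algebra K F] [IsFF K F]

/-- `z` is a value of the pairing computed on some admissible representatives. -/
def IsWeilValue (m : ℕ) (x y : Pic0 K F) (z : Kˣ) : Prop :=
  ∃ (D E : Divisor K F) (f g : F), IsRep m x D f ∧ IsRep m y E g ∧ DisjD D E ∧
    z = weilAux f g D E

open Classical in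
/-- The Weil pairing (`1` outside the `m`-torsion). -/
noncomputable def weil (m : ℕ) (x y : Pic0 K F) : Kˣ :=
  if h : ∃ z, IsWeilValue m x y z then h.choose else 1

/-- `exists_isRep` twice (the second time avoiding the support of the first divisor). -/
theorem exists_isWeilValue {m : ℕ} {x y : Pic0 K F} (hx : x ∈ Pic0.torsion K F m)
    (hy : y ∈ Pic0.torsion K F m) : ∃ z, IsWeilValue m x y z := by
  obtain ⟨D, f, h, -⟩ := exists_isRep hx ∅
  obtain ⟨E, g, hE, hav⟩ := exists_isRep hy D.support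
  refine ⟨_, D, E, f, g, h, hE, fun P => ?_, rfl⟩
  by_cases hP : P ∈ D.support
  · exact Or.inr (hav P hP)
  · exact Or.inl (Finsupp.notMem_support_iff.mp hP)

theorem Pairing_weil_of_isWeilValue {m : ℕ} {x y : Pic0 K F} {z : Kˣ}
    (hz : IsWeilValue m x y z) : weil m x y = z := by
  have hex : ∃ z, IsWeilValue m x y z := ⟨z, hz⟩
  unfold weil
  rw [dif_pos hex]
  obtain ⟨D, E, f, g, h, hE, hd, h1⟩ := hex.choose_spec
  obtain ⟨D', E', f', g', h', hE', hd', h2⟩ := hz
  rw [h1, h2]
  exact weilAux_congr h h' hE hE' hd hd'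

theorem Pairing_weil_of_not {m : ℕ} {x y : Pic0 K F}
    (hz : ¬ ∃ z, IsWeilValue m x y z) : weil m x y = 1 := by
  unfold weil
  rw [dif_neg hz]

theorem Pairing_isWeilValue_swap {m : ℕ} {x y : Pic0 K F} {z : Kˣ}
    (hz : IsWeilValue m x y z) : IsWeilValue m y x z⁻¹ := by
  obtain ⟨D, E, f, g, h, hE, hd, h1⟩ := hz
  exact ⟨E, D, g, f, hE, h, hd.symm, by rw [h1]; exact (weilAux_swap f g D E).symm⟩

/-- THE formula (`weilAux_congr`). -/
theorem weil_eq {m : ℕ} {x y : Pic0 K F} {D E : Divisor K F} {f g : F}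
    (h : IsRep m x D f) (hE : IsRep m y E g) (hd : DisjD D E) :
    weil m x y = evD f E / evD g D :=
  Pairing_weil_of_isWeilValue ⟨D, E, f, g, h, hE, hd, rfl⟩

/-- choose `E` for `y`, then `D`, `D'` for `x`, `x'` avoiding the support of `E`
(`IsRep.add`, `DisjD.add_left`, `weilAux_mul_left`). -/
theorem weil_add_left {m : ℕ} {x x' y : Pic0 K F} (hx : x ∈ Pic0.torsion K F m)
    (hx' : x' ∈ Pic0.torsion K F m) (hy : y ∈ Pic0.torsion K F m) :
    weil m (x + x') y = weil m x y * weil m x' y := by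
  obtain ⟨E, g, hE, -⟩ := exists_isRep hy ∅
  obtain ⟨D, f, h, hav⟩ := exists_isRep hx E.support
  obtain ⟨D', f', h', hav'⟩ := exists_isRep hx' E.support
  have hd : DisjD D E := fun P => by
    by_cases hP : P ∈ E.support
    · exact Or.inl (hav P hP)
    · exact Or.inr (Finsupp.notMem_support_iff.mp hP)
  have hd' : DisjD D' E := fun P => by
    by_cases hP : P ∈ E.support
    · exact Or.inl (hav' P hP)
    · exact Or.inr (Finsupp.notMem_support_iff.mp hP)
  rw [weil_eq (h.add h') hE (hd.add_left hd'), weil_eq h hE hd, weil_eq h' hE hd']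
  exact weilAux_mul_left g h h' hd hd'

theorem weil_swap (m : ℕ) (x y : Pic0 K F) : weil m y x = (weil m x y)⁻¹ := by
  by_cases hex : ∃ z, IsWeilValue m x y z
  · obtain ⟨z, hz⟩ := hex
    rw [Pairing_weil_of_isWeilValue hz, Pairing_weil_of_isWeilValue (Pairing_isWeilValue_swap hz)]
  · have hex' : ¬ ∃ z, IsWeilValue m y x z := by
      rintro ⟨z, hz⟩
      exact hex ⟨_, Pairing_isWeilValue_swap hz⟩
    rw [Pairing_weil_of_not hex, Pairing_weil_of_not hex', inv_one]

theorem weil_add_right {m : ℕ} {x y y' : Pic0 K F} (hx : x ∈ Pic0.torsion K F m)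
    (hy : y ∈ Pic0.torsion K F m) (hy' : y' ∈ Pic0.torsion K F m) :
    weil m x (y + y') = weil m x y * weil m x y' := by
  rw [weil_swap m (y + y') x, weil_add_left hy hy' hx, weil_swap m y x, weil_swap m y' x, mul_inv]

theorem weil_pow (m : ℕ) (x y : Pic0 K F) : weil m x y ^ m = 1 := by
  by_cases hex : ∃ z, IsWeilValue m x y z
  · obtain ⟨z, hz⟩ := hex
    rw [Pairing_weil_of_isWeilValue hz]
    obtain ⟨D, E, f, g, h, hE, hd, h1⟩ := hz
    rw [h1]
    exact weilAux_pow h hE hd
  · rw [Pairing_weil_of_not hex, one_pow]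

theorem weil_zero_left (m : ℕ) (y : Pic0 K F) : weil m 0 y = 1 := by
  by_cases hy : y ∈ Pic0.torsion K F m
  · have h0 : (0 : Pic0 K F) ∈ Pic0.torsion K F m := (Pic0.torsion K F m).zero_mem
    have h1 := weil_add_left h0 h0 hy
    rw [add_zero] at h1
    exact (mul_eq_left.mp h1.symm)
  · apply Pairing_weil_of_not
    rintro ⟨z, D, E, f, g, h, hE, hd, h1⟩
    exact hy hE.mem_torsion

theorem weil_zero_right (m : ℕ) (x : Pic0 K F) : weil m x 0 = 1 := by
  rw [weil_swap m 0 x, weil_zero_left, inv_one]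

/-- `IsRep m x D f → IsRep m (g • x) (g • D) (g • f)` (`divOf_smul`,
`SemilinearAut` action on `Pic0`: `g • Pic0.mk D = Pic0.mk (degZeroSMulHom g D)` is `rfl`). -/
theorem IsRep.smul (g : SemilinearAut K F) {m : ℕ} {x : Pic0 K F} {D : Divisor K F} {f : F}
    (h : IsRep m x D f) : IsRep m (g • x) (g • D) (g • f) := by
  obtain ⟨hD, hx, hf, hdiv⟩ := h
  refine ⟨SemilinearAut.smul_mem_degZero g hD, ?_, ?_, ?_⟩
  · rw [← hx, SemilinearAut.pic0_smul_mk]
    exact congrArg Pic0.mk (Subtype.ext (SemilinearAut.coe_degZeroSMulHom g ⟨D, hD⟩).symm)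
  · exact (smul_ne_zero_iff_ne g).mpr hf
  · rw [divOf_smul, hdiv, smul_comm]

theorem Pairing_isWeilValue_smul (g : SemilinearAut K F) {m : ℕ} {x y : Pic0 K F} {z : Kˣ}
    (hz : IsWeilValue m x y z) :
    IsWeilValue m (g • x) (g • y) (Units.map (SemilinearAut.baseAut g : K →* K) z) := by
  obtain ⟨D, E, f, f', h, hE, hd, h1⟩ := hz
  refine ⟨g • D, g • E, g • f, g • f', h.smul g, hE.smul g, fun P => ?_, ?_⟩
  · rw [SemilinearAut.divisor_smul_apply, SemilinearAut.divisor_smul_apply]
    exact hd _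
  · rw [h1, weilAux, weilAux, evD_smul, evD_smul, map_div]

/-- Galois equivariance (`evD_smul`, `weil_eq`; outside the torsion both sides are `1`:
use `IsRep.smul` for `g` and `g⁻¹`). -/
theorem weil_smul (g : SemilinearAut K F) (m : ℕ) (x y : Pic0 K F) :
    weil m (g • x) (g • y) = Units.map (SemilinearAut.baseAut g : K →* K) (weil m x y) := by
  by_cases hex : ∃ z, IsWeilValue m x y z
  · obtain ⟨z, hz⟩ := hex
    rw [Pairing_weil_of_isWeilValue hz,
      Pairing_weil_of_isWeilValue (Pairing_isWeilValue_smul g hz)]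
  · have hex' : ¬ ∃ z, IsWeilValue m (g • x) (g • y) z := by
      rintro ⟨z, hz⟩
      have h1 := Pairing_isWeilValue_smul g⁻¹ hz
      rw [inv_smul_smul, inv_smul_smul] at h1
      exact hex ⟨_, h1⟩
    rw [Pairing_weil_of_not hex, Pairing_weil_of_not hex', map_one]

end Fermat.Agent.S19.Weil
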