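import Fermat.Agent.S19.Weil.NormRes

/-!
# S19 block W, leaf W7: projection formulas
`(π^* u)(D') = u(π_* D')` and `f(π^* D) = (N f)(D)`.
-/

set_option autoImplicit false
set_option linter.unusedSectionVars false

namespace Fermat.Agent.S19.Weil

open AlgebraicCurve Fermat.Agent.Lib.RR

variable {K F F' : Type*} [Field K] [IsAlgClosed K] [Field F] [Field F'] [Algebra K F]
  [Algebra K F'] [Algebra F F'] [IsScalarTower K F F'] [FiniteDimensional F F']
  [Algebra.IsSeparable F F'] [IsFF K F] [IsFF K F']

/-- `Place.mem_restrict_iff`, `ev_eq_iff`, `Place.ord_restrict`. -/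
theorem ev_algebraMap_eq (w : Place K F') (u : F) :
    ev w (algebraMap F F' u) = ev (w.restrict F) u := by
  have hepos : (0 : ℤ) < (w.ramificationIndex F : ℤ) := by
    exact_mod_cast w.ramificationIndex_pos (F := F)
  by_cases hu : u ∈ (w.restrict F).toValuationSubring
  · have hu' : algebraMap F F' u ∈ w.toValuationSubring := (Place.mem_restrict_iff w).mp hu
    rw [ev_eq_iff w hu']
    rcases ord_sub_ev_pos (w.restrict F) hu with h | h
    · left
      rw [IsScalarTower.algebraMap_apply K F F', ← h]
    · right
      rw [IsScalarTower.algebraMap_apply K F F', ← map_sub, Place.ord_restrict]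
      exact mul_pos hepos h
  · have h1 : (w.restrict F).ord u < 0 := by
      by_contra hcon
      exact hu ((mem_iff_ord _ u).mpr (Or.inr (not_lt.mp hcon)))
    rw [ev_eq_zero_of_ord_neg _ h1]
    apply ev_eq_zero_of_ord_neg
    rw [Place.ord_restrict]
    exact mul_neg_of_pos_of_neg hepos h1

theorem evU_algebraMap_eq (w : Place K F') (u : F) :
    evU w (algebraMap F F' u) = evU (w.restrict F) u := by
  have h := ev_algebraMap_eq w u
  unfold evU
  by_cases h0 : ev (w.restrict F) u ≠ 0
  · rw [dif_pos h0, dif_pos (by rw [h]; exact h0)]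
    exact Units.ext h
  · rw [dif_neg h0, dif_neg (by rw [h]; exact h0)]

/-- induction on `D'` (`Finsupp.induction_linear`), `evD_add`, `evD_single`,
`Divisor.mapRestrict_single`. -/
theorem evD_algebraMap_eq (u : F) (D' : Divisor K F') :
    evD (algebraMap F F' u) D' = evD u (Divisor.mapRestrict F D') := by
  induction D' using Finsupp.induction_linear with
  | zero => rw [map_zero, evD_zero, evD_zero]
  | add D E hD hE => rw [map_add, evD_add, evD_add, hD, hE]
  | single w n => rw [Divisor.mapRestrict_single, evD_single, evD_single, evU_algebraMap_eq]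

theorem Proj_evD_pullback_single {f : F'} (hf : f ≠ 0) (v : Place K F) (n : ℤ)
    (h : ∀ w ∈ v.fiber F', w.ord f = 0) :
    evD f (Divisor.pullback F' (Finsupp.single v n)) = evU v (Algebra.norm F f) ^ n := by
  rw [Divisor.pullback_single, evD_sum, evU_norm v hf h, ← Finset.prod_zpow]
  refine Finset.prod_congr rfl fun w _ => ?_
  rw [evD_single, mul_comm, zpow_mul, zpow_natCast]

/-- `evD f (pullback (single v n)) = (∏_{w | v} evU w f ^ e_w) ^ n = evU v (N f) ^ n`
(`Divisor.pullback_single`, `Divisor.pullbackSingleHom_apply`, `evU_norm`) when `f` is a unit at all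
`w | v`.  General `D`: write `D = ∑_{v ∈ D.support} single v (D v)` (`Finsupp.sum_single`),
`evD_sum`; `Divisor.pullback_apply` shows that `f` is a unit above the support of `D`. -/
theorem evD_pullback {f : F'} {D : Divisor K F} (h : Disj f (Divisor.pullback F' D)) :
    evD f (Divisor.pullback F' D) = evD (Algebra.norm F f) D := by
  obtain ⟨hf, hD⟩ := h
  have hsum : D = ∑ v ∈ D.support, Finsupp.single v (D v) := (Finsupp.sum_single D).symm
  rw [evD_eq_prod (Algebra.norm F f) D D.support subset_rfl]
  conv_lhs => rw [hsum]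
  rw [map_sum, evD_sum]
  refine Finset.prod_congr rfl fun v hv => ?_
  apply Proj_evD_pullback_single hf
  intro w hw
  apply hD
  rw [Divisor.pullback_apply, Place.mem_fiber.mp hw]
  have hepos : (w.ramificationIndex F : ℤ) ≠ 0 := by
    exact_mod_cast (w.ramificationIndex_pos (F := F)).ne'
  exact mul_ne_zero hepos (Finsupp.mem_support_iff.mp hv)

end Fermat.Agent.S19.Weil
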