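import Fermat.Agent.S19.Weil.Recip
import Fermat.Agent.S19.Weil.Move

/-!
# S19 block W, leaf W10: the Weil pairing on representatives.

`IsRep m x D f` : `D` is a divisor of degree `0` in the class `x` and `div f = m D`.
`weilAux f g D E = f(E) / g(D)`.
-/

set_option autoImplicit false
set_option linter.unusedSectionVars false

namespace Fermat.Agent.S19.Weil

open AlgebraicCurve Fermat.Agent.Lib.RR

variable {K F : Type*} [Field K] [IsAlgClosed K] [Field F] [Algebra K F] [IsFF K F]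

/-- `(D, f)` represents the `m`-torsion class `x`. -/
def IsRep (m : ℕ) (x : Pic0 K F) (D : Divisor K F) (f : F) : Prop :=
  ∃ hD : D ∈ Divisor.degZero (K := K) (F := F),
    Pic0.mk ⟨D, hD⟩ = x ∧ f ≠ 0 ∧ divOf (K := K) f = m • D

/-- disjoint supports -/
def DisjD (D E : Divisor K F) : Prop := ∀ P, D P = 0 ∨ E P = 0

/-- `f(E) / g(D)` -/
noncomputable def weilAux (f g : F) (D E : Divisor K F) : Kˣ := evD f E / evD g D

theorem DisjD.symm {D E : Divisor K F} (h : DisjD D E) : DisjD E D := fun P => (h P).symm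

theorem DisjD.add_left {D D' E : Divisor K F} (h : DisjD D E) (h' : DisjD D' E) :
    DisjD (D + D') E := by
  intro P
  rcases h P with h1 | h1
  · rcases h' P with h2 | h2
    · left
      rw [Finsupp.add_apply, h1, h2, add_zero]
    · exact Or.inr h2
  · exact Or.inr h1

theorem IsRep.degree_eq_zero {m : ℕ} {x : Pic0 K F} {D : Divisor K F} {f : F}
    (h : IsRep m x D f) : Divisor.degree D = 0 := by
  obtain ⟨hD, -⟩ := h
  exact hD

theorem IsRep.ord_eq {m : ℕ} {x : Pic0 K F} {D : Divisor K F} {f : F} (h : IsRep m x D f)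
    (P : Place K F) : P.ord f = m * D P := by
  obtain ⟨hD, -, -, hdiv⟩ := h
  have h1 := DFunLike.congr_fun hdiv P
  rw [divOf_apply, Finsupp.smul_apply, nsmul_eq_mul] at h1
  exact h1

theorem PairAux_ne_zero {m : ℕ} {x : Pic0 K F} {D : Divisor K F} {f : F}
    (h : IsRep m x D f) : f ≠ 0 := by
  obtain ⟨-, -, hf, -⟩ := h
  exact hf

theorem PairAux_divOf {m : ℕ} {x : Pic0 K F} {D : Divisor K F} {f : F}
    (h : IsRep m x D f) : divOf (K := K) f = m • D := by
  obtain ⟨-, -, -, hdiv⟩ := h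
  exact hdiv

theorem IsRep.disj {m : ℕ} {x : Pic0 K F} {D E : Divisor K F} {f : F} (h : IsRep m x D f)
    (hd : DisjD D E) : Disj f E := by
  refine ⟨PairAux_ne_zero h, fun P hP => ?_⟩
  rw [h.ord_eq P, (hd P).resolve_right hP, mul_zero]

/-- the class of `D` is killed by `m` iff `m D` is principal. -/
theorem PairAux_zsmul_mk_eq_zero_iff (m : ℕ) {D : Divisor K F}
    (hD : D ∈ Divisor.degZero (K := K) (F := F)) :
    (m : ℤ) • Pic0.mk ⟨D, hD⟩ = 0 ↔ ∃ f : F, f ≠ 0 ∧ divOf (K := K) f = m • D := by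
  have h1 : (m : ℤ) • Pic0.mk ⟨D, hD⟩
      = (QuotientAddGroup.mk ((m : ℤ) • (⟨D, hD⟩ : Divisor.degZero (K := K) (F := F))) :
          Pic0 K F) := rfl
  rw [h1, QuotientAddGroup.eq_zero_iff, AddSubgroup.mem_addSubgroupOf]
  constructor
  · rintro ⟨f, hf, hv⟩
    refine ⟨f, hf, ?_⟩
    ext v
    rw [divOf_apply, ← hv v]
    simp
  · rintro ⟨f, hf, hdiv⟩
    refine ⟨f, hf, fun v => ?_⟩
    rw [← divOf_apply (K := K) f v, hdiv]
    simp

theorem IsRep.mem_torsion {m : ℕ} {x : Pic0 K F} {D : Divisor K F} {f : F}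
    (h : IsRep m x D f) : x ∈ Pic0.torsion K F m := by
  obtain ⟨hD, rfl, hf, hdiv⟩ := h
  rw [Pic0.mem_torsion, PairAux_zsmul_mk_eq_zero_iff]
  exact ⟨f, hf, hdiv⟩

theorem IsRep.add {m : ℕ} {x x' : Pic0 K F} {D D' : Divisor K F} {f f' : F}
    (h : IsRep m x D f) (h' : IsRep m x' D' f') : IsRep m (x + x') (D + D') (f * f') := by
  obtain ⟨hD, rfl, hf, hdiv⟩ := h
  obtain ⟨hD', rfl, hf', hdiv'⟩ := h'
  refine ⟨add_mem hD hD', rfl, mul_ne_zero hf hf', ?_⟩
  rw [divOf_mul hf hf', hdiv, hdiv', smul_add]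

theorem isRep_zero (m : ℕ) : IsRep m (0 : Pic0 K F) 0 1 := by
  refine ⟨zero_mem _, rfl, one_ne_zero, ?_⟩
  ext v
  simp

/-- two divisors of degree `0` have the same class iff they differ by a principal divisor. -/
theorem PairAux_mk_eq_mk_iff {D D' : Divisor K F}
    (hD : D ∈ Divisor.degZero (K := K) (F := F)) (hD' : D' ∈ Divisor.degZero (K := K) (F := F)) :
    Pic0.mk ⟨D, hD⟩ = Pic0.mk ⟨D', hD'⟩ ↔ ∃ u : F, u ≠ 0 ∧ D' = D + divOf (K := K) u := by
  unfold Pic0.mk
  rw [QuotientAddGroup.eq, AddSubgroup.mem_addSubgroupOf]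
  constructor
  · rintro ⟨u, hu, hv⟩
    refine ⟨u, hu, ?_⟩
    ext v
    have h1 := hv v
    rw [Finsupp.add_apply, divOf_apply, ← h1]
    simp
  · rintro ⟨u, hu, rfl⟩
    refine ⟨u, hu, fun v => ?_⟩
    simp

/-- two representatives of the same class: `D' = D + div h`, `f' = c f h^m`.
(`QuotientAddGroup.eq`, `Divisor.mem_principal`; `f' / (f h^m)` has trivial divisor hence is a
constant: `RED.mem_range_of_ord_nonneg`.) -/
theorem IsRep.exists_eq {m : ℕ} {x : Pic0 K F} {D D' : Divisor K F} {f f' : F}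
    (h : IsRep m x D f) (h' : IsRep m x D' f') :
    ∃ (u : F) (c : Kˣ), u ≠ 0 ∧ D' = D + divOf (K := K) u ∧
      f' = algebraMap K F (c : K) * (f * u ^ m) := by
  have hord := h.ord_eq
  have hord' := h'.ord_eq
  obtain ⟨hD, hx, hf, -⟩ := h
  obtain ⟨hD', hx', hf', -⟩ := h'
  obtain ⟨u, hu, hDD⟩ := (PairAux_mk_eq_mk_iff hD hD').mp (hx.trans hx'.symm)
  have hfu : f * u ^ m ≠ 0 := mul_ne_zero hf (pow_ne_zero _ hu)
  have h0 : ∀ P : Place K F, 0 ≤ P.ord (f' / (f * u ^ m)) := by
    intro P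
    rw [Fermat.Agent.GAL.RED.ord_div P hf' hfu, P.ord_mul hf (pow_ne_zero _ hu),
      Fermat.Agent.GAL.RED.ord_pow, hord, hord', hDD, Finsupp.add_apply, divOf_apply]
    apply le_of_eq
    ring
  obtain ⟨c, hc⟩ := Fermat.Agent.GAL.RED.mem_range_of_ord_nonneg h0
  have hc0 : c ≠ 0 := by
    rintro rfl
    rw [map_zero] at hc
    exact div_ne_zero hf' hfu hc.symm
  refine ⟨u, Units.mk0 c hc0, hu, hDD, ?_⟩
  rw [Units.val_mk0, hc, div_mul_cancel₀ _ hfu]

/-- representatives exist and can be moved away from any finite set (`exists_move`). -/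
theorem exists_isRep {m : ℕ} {x : Pic0 K F} (hx : x ∈ Pic0.torsion K F m)
    (S : Finset (Place K F)) : ∃ D f, IsRep m x D f ∧ ∀ P ∈ S, D P = 0 := by
  obtain ⟨⟨D₀, hD₀⟩, rfl⟩ := Pic0.mk_surjective x
  obtain ⟨u, hu, hS⟩ := exists_move D₀ S
  have hD : D₀ + divOf (K := K) u ∈ Divisor.degZero (K := K) (F := F) := by
    rw [Divisor.mem_degZero, map_add, degree_divOf, add_zero]
    exact hD₀
  have hmk : Pic0.mk ⟨D₀, hD₀⟩ = Pic0.mk ⟨D₀ + divOf (K := K) u, hD⟩ :=
    (PairAux_mk_eq_mk_iff hD₀ hD).mpr ⟨u, hu, rfl⟩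
  rw [Pic0.mem_torsion, hmk, PairAux_zsmul_mk_eq_zero_iff] at hx
  obtain ⟨f, hf, hdiv⟩ := hx
  exact ⟨D₀ + divOf (K := K) u, f, ⟨hD, hmk.symm, hf, hdiv⟩, hS⟩

theorem weilAux_swap (f g : F) (D E : Divisor K F) :
    weilAux g f E D = (weilAux f g D E)⁻¹ := by
  unfold weilAux
  rw [inv_div]

variable [CharZero K]

/-- Change of the first representative.  With `D' = D + div u`, `f' = c f u^m`:
`f'(E) = f(E) u(E)^m = f(E) u(m E) = f(E) u(div g)` (`evD_mul`, `evD_pow`, `evD_nsmul`,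
`evD_algebraMap_of_degree_eq_zero`), `g(D') = g(D) g(div u)` (`evD_add`) and
`u(div g) = g(div u)` by `weil_reciprocity` (`ord_P u = D' P - D P`, `ord_P g = m E P`). -/
theorem weilAux_congr_left {m : ℕ} {x y : Pic0 K F} {D D' E : Divisor K F} {f f' g : F}
    (h : IsRep m x D f) (h' : IsRep m x D' f') (hE : IsRep m y E g)
    (hd : DisjD D E) (hd' : DisjD D' E) : weilAux f g D E = weilAux f' g D' E := by
  obtain ⟨u, c, hu, hDD, hff⟩ := h.exists_eq h'
  have hordu : ∀ P : Place K F, E P ≠ 0 → P.ord u = 0 := by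
    intro P hP
    have h1 := (hd P).resolve_right hP
    have h2 := (hd' P).resolve_right hP
    rw [hDD, Finsupp.add_apply, h1, zero_add, divOf_apply] at h2
    exact h2
  have hdu : Disj u E := ⟨hu, hordu⟩
  have hdf : Disj f E := h.disj hd
  have hrec : evD u (divOf (K := K) g) = evD g (divOf (K := K) u) := by
    refine weil_reciprocity hu (PairAux_ne_zero hE) fun P => ?_
    by_cases hP : E P = 0
    · right
      rw [hE.ord_eq P, hP, mul_zero]
    · exact Or.inl (hordu P hP)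
  have h1 : evD f' E = evD f E * evD g (divOf (K := K) u) := by
    rw [hff, evD_mul (disj_algebraMap c E) (hdf.mul (hdu.pow m)),
      evD_algebraMap_of_degree_eq_zero c hE.degree_eq_zero, one_mul, evD_mul hdf (hdu.pow m),
      evD_pow, ← evD_nsmul, ← PairAux_divOf hE, hrec]
  unfold weilAux
  rw [h1, hDD, evD_add, mul_div_mul_right_eq_div]

theorem weilAux_congr_right {m : ℕ} {x y : Pic0 K F} {D E E' : Divisor K F} {f g g' : F}
    (h : IsRep m x D f) (hE : IsRep m y E g) (hE' : IsRep m y E' g')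
    (hd : DisjD D E) (hd' : DisjD D E') : weilAux f g D E = weilAux f g' D E' := by
  rw [weilAux_swap g f E D, weilAux_swap g' f E' D,
    weilAux_congr_left hE hE' h hd.symm hd'.symm]

/-- Independence of all choices: go through a third representative `D''` of `x` which avoids the
supports of `E` and `E'` (`exists_isRep` with `S = E.support ∪ E'.support`):
`(D,E) → (D'',E) → (D'',E') → (D',E')`. -/
theorem weilAux_congr {m : ℕ} {x y : Pic0 K F} {D D' E E' : Divisor K F} {f f' g g' : F}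
    (h : IsRep m x D f) (h' : IsRep m x D' f') (hE : IsRep m y E g) (hE' : IsRep m y E' g')
    (hd : DisjD D E) (hd' : DisjD D' E') : weilAux f g D E = weilAux f' g' D' E' := by
  classical
  obtain ⟨D'', f'', h'', hS⟩ := exists_isRep h.mem_torsion (E.support ∪ E'.support)
  have hd1 : DisjD D'' E := by
    intro P
    by_cases hP : E P = 0
    · exact Or.inr hP
    · exact Or.inl (hS P (Finset.mem_union_left _ (Finsupp.mem_support_iff.mpr hP)))
  have hd2 : DisjD D'' E' := by
    intro P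
    by_cases hP : E' P = 0
    · exact Or.inr hP
    · exact Or.inl (hS P (Finset.mem_union_right _ (Finsupp.mem_support_iff.mpr hP)))
  rw [weilAux_congr_left h h'' hE hd hd1, weilAux_congr_right h'' hE hE' hd1 hd2,
    weilAux_congr_left h'' h' hE' hd2 hd']

/-- `f(E)^m = f(m E) = f(div g) = g(div f) = g(D)^m`. -/
theorem weilAux_pow {m : ℕ} {x y : Pic0 K F} {D E : Divisor K F} {f g : F}
    (h : IsRep m x D f) (hE : IsRep m y E g) (hd : DisjD D E) : weilAux f g D E ^ m = 1 := by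
  have hrec : evD f (divOf (K := K) g) = evD g (divOf (K := K) f) := by
    refine weil_reciprocity (PairAux_ne_zero h) (PairAux_ne_zero hE) fun P => ?_
    rcases hd P with hP | hP
    · left
      rw [h.ord_eq P, hP, mul_zero]
    · right
      rw [hE.ord_eq P, hP, mul_zero]
  unfold weilAux
  rw [div_pow, ← evD_nsmul, ← evD_nsmul, ← PairAux_divOf h, ← PairAux_divOf hE, hrec, div_self']

omit [CharZero K] in
theorem weilAux_mul_left {m : ℕ} {x x' : Pic0 K F} {D D' E : Divisor K F} {f f' : F} (g : F)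
    (h : IsRep m x D f) (h' : IsRep m x' D' f') (hd : DisjD D E) (hd' : DisjD D' E) :
    weilAux (f * f') g (D + D') E = weilAux f g D E * weilAux f' g D' E := by
  unfold weilAux
  rw [evD_mul (h.disj hd) (h'.disj hd'), evD_add, mul_div_mul_comm]

end Fermat.Agent.S19.Weil
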