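import Fermat.Agent.GAL.RED.Basic
import Fermat.Agent.GAL.RED.CurveBasic

/-!
# S19 block W (Weil pairing), leaf W1: evaluation of functions at places and at divisors.

`K` algebraically closed, `F / K` a function field (`IsFF`).  The residue field of every place is `K`.
* `ev P f : K`      : the value `f(P)` (`0` if `f` has a pole at `P`);
* `evU P f : Kˣ`    : the same as a unit (`1` if `f` has a zero or a pole at `P`, or `f = 0`);
* `evD f D : Kˣ`    : `f(D) = ∏_P f(P)^(D P)`, a homomorphism in `D` (unconditionally) and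
                      multiplicative in `f` on the functions which are units on the support of `D`.
`ev P` is `GRed.gred P.toValuationSubring (resK P)` of `GAL/RED/Basic.lean`: all the formal
properties (`mul`, `add`, `inv`, `pow`, `zpow`, `ne_zero_iff`, ...) are available there.
-/

set_option autoImplicit false

namespace Fermat.Agent.S19.Weil

open AlgebraicCurve Fermat.Agent.Lib.RR Fermat.Agent.GAL.RED

variable {K F : Type*} [Field K] [Field F] [Algebra K F] [IsFF K F] [IsAlgClosed K]

/-- The residue map `O_P → K`. -/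
noncomputable def resK (P : Place K F) : P.toValuationSubring →+* K :=
  ((RingEquiv.ofBijective (algebraMap K P.ResidueField)
    (curveBasic_residue_bijective P)).symm : P.ResidueField →+* K).comp
    (IsLocalRing.residue P.toValuationSubring)

theorem resK_surjective (P : Place K F) : Function.Surjective (resK P) := by
  unfold resK
  rw [RingHom.coe_comp]
  exact (RingEquiv.surjective _).comp IsLocalRing.residue_surjective

theorem resK_algebraMap (P : Place K F) (a : K) :
    resK P (algebraMap K P.toValuationSubring a) = a := by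
  unfold resK
  rw [RingHom.comp_apply]
  change (RingEquiv.ofBijective (algebraMap K P.ResidueField)
    (curveBasic_residue_bijective P)).symm _ = a
  rw [RingEquiv.symm_apply_eq]
  rfl

/-- The value of `f` at `P` (`0` at a pole). -/
noncomputable def ev (P : Place K F) (f : F) : K := GRed.gred P.toValuationSubring (resK P) f

theorem mem_iff_ord (P : Place K F) (f : F) :
    f ∈ P.toValuationSubring ↔ f = 0 ∨ 0 ≤ P.ord f := by
  rcases eq_or_ne f 0 with rfl | hf
  · simp [zero_mem]
  · simp only [hf, false_or]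
    exact Fermat.Agent.S24.mem_iff_ord_nonneg P hf

@[simp] theorem ev_zero (P : Place K F) : ev P (0 : F) = 0 := GRed.zero _ _

@[simp] theorem ev_one (P : Place K F) : ev P (1 : F) = 1 := GRed.one _ _

theorem Ev_algebraMap_mem (P : Place K F) (a : K) : algebraMap K F a ∈ P.toValuationSubring :=
  (algebraMap K P.toValuationSubring a).2

@[simp] theorem ev_algebraMap (P : Place K F) (a : K) : ev P (algebraMap K F a) = a := by
  unfold ev
  rw [GRed.of_mem _ _ (Ev_algebraMap_mem P a)]
  exact resK_algebraMap P a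

theorem ev_add (P : Place K F) {f g : F} (hf : f ∈ P.toValuationSubring)
    (hg : g ∈ P.toValuationSubring) : ev P (f + g) = ev P f + ev P g := GRed.add _ _ hf hg

theorem ev_sub (P : Place K F) {f g : F} (hf : f ∈ P.toValuationSubring)
    (hg : g ∈ P.toValuationSubring) : ev P (f - g) = ev P f - ev P g := GRed.sub _ _ hf hg

theorem ev_mul (P : Place K F) {f g : F} (hf : f ∈ P.toValuationSubring)
    (hg : g ∈ P.toValuationSubring) : ev P (f * g) = ev P f * ev P g := GRed.mul _ _ hf hg

theorem ev_neg (P : Place K F) (f : F) : ev P (-f) = -ev P f := GRed.neg _ _ f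

/-- valid for all `f`. -/
theorem ev_inv (P : Place K F) (f : F) : ev P f⁻¹ = (ev P f)⁻¹ := GRed.inv (resK_surjective P) f

/-- valid for all `f`. -/
theorem ev_pow (P : Place K F) (f : F) (n : ℕ) : ev P (f ^ n) = ev P f ^ n :=
  GRed.pow (resK_surjective P) f n

/-- valid for all `f`. -/
theorem ev_zpow (P : Place K F) (f : F) (n : ℤ) : ev P (f ^ n) = ev P f ^ n :=
  GRed.zpow (resK_surjective P) f n

theorem ev_ne_zero_iff (P : Place K F) {f : F} : ev P f ≠ 0 ↔ f ≠ 0 ∧ P.ord f = 0 := by
  unfold ev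
  rw [GRed.ne_zero_iff (resK_surjective P)]
  constructor
  · rintro ⟨h0, h1, h2⟩
    refine ⟨h0, ?_⟩
    have h3 := Fermat.Agent.S24.ord_nonneg_of_mem P h1
    have h4 := Fermat.Agent.S24.ord_nonneg_of_mem P h2
    rw [P.ord_inv] at h4
    omega
  · rintro ⟨h0, h1⟩
    refine ⟨h0, Fermat.Agent.S24.mem_of_ord_nonneg P h0 h1.ge,
      Fermat.Agent.S24.mem_of_ord_nonneg P (inv_ne_zero h0) ?_⟩
    rw [P.ord_inv, h1, neg_zero]

theorem ev_eq_zero_of_ord_pos (P : Place K F) {f : F} (h : 0 < P.ord f) : ev P f = 0 := by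
  by_contra h0
  have := ((ev_ne_zero_iff P).1 h0).2
  omega

theorem ev_eq_zero_of_ord_neg (P : Place K F) {f : F} (h : P.ord f < 0) : ev P f = 0 := by
  by_contra h0
  have := ((ev_ne_zero_iff P).1 h0).2
  omega

theorem Ev_ev_eq_zero_iff (P : Place K F) {f : F} (hf : f ∈ P.toValuationSubring) :
    ev P f = 0 ↔ f = 0 ∨ 0 < P.ord f := by
  constructor
  · intro h
    by_contra hcon
    push Not at hcon
    obtain ⟨h0, h1⟩ := hcon
    have h2 := Fermat.Agent.S24.ord_nonneg_of_mem P hf
    exact (ev_ne_zero_iff P).2 ⟨h0, le_antisymm h1 h2⟩ h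
  · rintro (rfl | h)
    · exact ev_zero P
    · exact ev_eq_zero_of_ord_pos P h

/-- characterisation of the value. -/
theorem ev_eq_iff (P : Place K F) {f : F} (hf : f ∈ P.toValuationSubring) (a : K) :
    ev P f = a ↔ f = algebraMap K F a ∨ 0 < P.ord (f - algebraMap K F a) := by
  have h1 : ev P (f - algebraMap K F a) = ev P f - a := by
    rw [ev_sub P hf (Ev_algebraMap_mem P a), ev_algebraMap]
  rw [← sub_eq_zero, ← h1, Ev_ev_eq_zero_iff P (sub_mem hf (Ev_algebraMap_mem P a)), sub_eq_zero]

theorem ord_sub_ev_pos (P : Place K F) {f : F} (hf : f ∈ P.toValuationSubring) :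
    f = algebraMap K F (ev P f) ∨ 0 < P.ord (f - algebraMap K F (ev P f)) :=
  (ev_eq_iff P hf _).mp rfl

theorem ev_prod {ι : Type*} (P : Place K F) (s : Finset ι) (f : ι → F)
    (hf : ∀ i ∈ s, f i ∈ P.toValuationSubring) : ev P (∏ i ∈ s, f i) = ∏ i ∈ s, ev P (f i) :=
  GRed.prod _ _ s f hf

/-! ### the value as a unit -/

open Classical in
/-- The value of `f` at `P` as a unit of `K` (`1` if `f` is not a unit at `P`). -/
noncomputable def evU (P : Place K F) (f : F) : Kˣ :=
  if h : ev P f ≠ 0 then Units.mk0 (ev P f) h else 1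

theorem Ev_evU_val_of_ne (P : Place K F) {f : F} (h : ev P f ≠ 0) : (evU P f : K) = ev P f := by
  unfold evU
  rw [dif_pos h]
  rfl

theorem Ev_evU_of_eq (P : Place K F) {f : F} (h : ev P f = 0) : evU P f = 1 := by
  unfold evU
  rw [dif_neg (not_not.2 h)]

theorem evU_val (P : Place K F) {f : F} (hf : f ≠ 0) (h : P.ord f = 0) :
    (evU P f : K) = ev P f :=
  Ev_evU_val_of_ne P ((ev_ne_zero_iff P).2 ⟨hf, h⟩)

theorem evU_of_ord_ne_zero (P : Place K F) {f : F} (h : P.ord f ≠ 0) : evU P f = 1 := by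
  apply Ev_evU_of_eq
  by_contra h0
  exact h ((ev_ne_zero_iff P).1 h0).2

@[simp] theorem evU_one (P : Place K F) : evU P (1 : F) = 1 := by
  apply Units.ext
  rw [Ev_evU_val_of_ne P (by rw [ev_one]; exact one_ne_zero), ev_one, Units.val_one]

theorem evU_mul (P : Place K F) {f g : F} (hf : f ≠ 0) (hf0 : P.ord f = 0) (hg : g ≠ 0)
    (hg0 : P.ord g = 0) : evU P (f * g) = evU P f * evU P g := by
  apply Units.ext
  have h1 : P.ord (f * g) = 0 := by rw [P.ord_mul hf hg, hf0, hg0, add_zero]
  rw [Units.val_mul, evU_val P (mul_ne_zero hf hg) h1, evU_val P hf hf0, evU_val P hg hg0,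
    ev_mul P (Fermat.Agent.S24.mem_of_ord_nonneg P hf hf0.ge)
      (Fermat.Agent.S24.mem_of_ord_nonneg P hg hg0.ge)]

/-- valid for all `f`. -/
theorem evU_inv (P : Place K F) (f : F) : evU P f⁻¹ = (evU P f)⁻¹ := by
  by_cases h : ev P f = 0
  · have h' : ev P f⁻¹ = 0 := by rw [ev_inv, h, inv_zero]
    rw [Ev_evU_of_eq P h, Ev_evU_of_eq P h', inv_one]
  · have h' : ev P f⁻¹ ≠ 0 := by rw [ev_inv]; exact inv_ne_zero h
    apply Units.ext
    rw [Units.val_inv_eq_inv_val, Ev_evU_val_of_ne P h, Ev_evU_val_of_ne P h', ev_inv]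

/-- valid for all `f`. -/
theorem evU_pow (P : Place K F) (f : F) (n : ℕ) : evU P (f ^ n) = evU P f ^ n := by
  rcases Nat.eq_zero_or_pos n with rfl | hn
  · simp
  by_cases h : ev P f = 0
  · have h' : ev P (f ^ n) = 0 := by rw [ev_pow, h, zero_pow hn.ne']
    rw [Ev_evU_of_eq P h, Ev_evU_of_eq P h', one_pow]
  · have h' : ev P (f ^ n) ≠ 0 := by rw [ev_pow]; exact pow_ne_zero _ h
    apply Units.ext
    rw [Units.val_pow_eq_pow_val, Ev_evU_val_of_ne P h, Ev_evU_val_of_ne P h', ev_pow]

theorem evU_algebraMap (P : Place K F) (c : Kˣ) : evU P (algebraMap K F (c : K)) = c := by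
  apply Units.ext
  rw [Ev_evU_val_of_ne P (by rw [ev_algebraMap]; exact c.ne_zero), ev_algebraMap]

/-! ### evaluation at a divisor -/

/-- `f(D) = ∏_P f(P)^(D P)`. -/
noncomputable def evD (f : F) (D : Divisor K F) : Kˣ := D.prod fun P n => evU P f ^ n

/-- `f` is a nonzero function without zero or pole on the support of `D`. -/
def Disj (f : F) (D : Divisor K F) : Prop := f ≠ 0 ∧ ∀ P, D P ≠ 0 → P.ord f = 0

@[simp] theorem evD_zero (f : F) : evD f (0 : Divisor K F) = 1 := by
  exact Finsupp.prod_zero_index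

theorem evD_add (f : F) (D E : Divisor K F) : evD f (D + E) = evD f D * evD f E := by
  exact Finsupp.prod_add_index' (fun P => zpow_zero _) (fun P a b => zpow_add _ a b)

theorem evD_neg (f : F) (D : Divisor K F) : evD f (-D) = (evD f D)⁻¹ := by
  have h := evD_add f (-D) D
  rw [neg_add_cancel, evD_zero] at h
  exact eq_inv_of_mul_eq_one_left h.symm

theorem evD_sub (f : F) (D E : Divisor K F) : evD f (D - E) = evD f D / evD f E := by
  rw [sub_eq_add_neg, evD_add, evD_neg, div_eq_mul_inv]

theorem evD_nsmul (f : F) (n : ℕ) (D : Divisor K F) : evD f (n • D) = evD f D ^ n := by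
  induction n with
  | zero => rw [zero_smul, evD_zero, pow_zero]
  | succ n ih => rw [succ_nsmul, evD_add, ih, pow_succ]

theorem evD_zsmul (f : F) (n : ℤ) (D : Divisor K F) : evD f (n • D) = evD f D ^ n := by
  obtain ⟨m, rfl | rfl⟩ := n.eq_nat_or_neg
  · rw [natCast_zsmul, evD_nsmul, zpow_natCast]
  · rw [neg_smul, evD_neg, natCast_zsmul, evD_nsmul, zpow_neg, zpow_natCast]

theorem evD_single (f : F) (P : Place K F) (n : ℤ) :
    evD f (Finsupp.single P n) = evU P f ^ n := by
  exact Finsupp.prod_single_index (zpow_zero _)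

theorem evD_eq_prod (f : F) (D : Divisor K F) (s : Finset (Place K F)) (hs : D.support ⊆ s) :
    evD f D = ∏ P ∈ s, evU P f ^ D P := by
  exact Finsupp.prod_of_support_subset D hs _ (fun P _ => zpow_zero _)

theorem evD_sum {ι : Type*} (f : F) (s : Finset ι) (D : ι → Divisor K F) :
    evD f (∑ i ∈ s, D i) = ∏ i ∈ s, evD f (D i) := by
  classical
  induction s using Finset.induction_on with
  | empty => simp
  | insert a s ha ih => rw [Finset.sum_insert ha, Finset.prod_insert ha, evD_add, ih]

@[simp] theorem evD_one (D : Divisor K F) : evD (1 : F) D = 1 := by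
  unfold evD
  simp [Finsupp.prod]

theorem evD_mul {f g : F} {D : Divisor K F} (hf : Disj f D) (hg : Disj g D) :
    evD (f * g) D = evD f D * evD g D := by
  unfold evD
  rw [← Finsupp.prod_mul]
  refine Finsupp.prod_congr fun P hP => ?_
  have hP' : D P ≠ 0 := Finsupp.mem_support_iff.1 hP
  rw [evU_mul P hf.1 (hf.2 P hP') hg.1 (hg.2 P hP'), mul_zpow]

/-- valid for all `f`. -/
theorem evD_inv (f : F) (D : Divisor K F) : evD f⁻¹ D = (evD f D)⁻¹ := by
  unfold evD
  rw [← Finsupp.prod_inv]
  refine Finsupp.prod_congr fun P _ => ?_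
  rw [evU_inv, inv_zpow]

/-- valid for all `f`. -/
theorem evD_pow (f : F) (n : ℕ) (D : Divisor K F) : evD (f ^ n) D = evD f D ^ n := by
  unfold evD Finsupp.prod
  rw [← Finset.prod_pow]
  refine Finset.prod_congr rfl fun P _ => ?_
  beta_reduce
  rw [evU_pow, ← zpow_natCast, ← zpow_natCast, ← zpow_mul, ← zpow_mul, mul_comm]

theorem evD_div {f g : F} {D : Divisor K F} (hf : Disj f D) (hg : Disj g D) :
    evD (f / g) D = evD f D / evD g D := by
  have hg' : Disj g⁻¹ D := by
    refine ⟨inv_ne_zero hg.1, fun P hP => ?_⟩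
    rw [P.ord_inv, hg.2 P hP, neg_zero]
  rw [div_eq_mul_inv, evD_mul hf hg', evD_inv, div_eq_mul_inv]

/-- constants: `c(D) = c^(deg D)`. -/
theorem evD_algebraMap (c : Kˣ) (D : Divisor K F) :
    evD (algebraMap K F (c : K)) D = c ^ Divisor.degree D := by
  induction D using Finsupp.induction_linear with
  | zero => rw [evD_zero, map_zero, zpow_zero]
  | add D E hD hE => rw [evD_add, hD, hE, map_add, zpow_add]
  | single P n =>
    rw [evD_single, evU_algebraMap, Divisor.degree_single, deg_eq_one, Nat.cast_one, mul_one]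

theorem evD_algebraMap_of_degree_eq_zero (c : Kˣ) {D : Divisor K F} (hD : Divisor.degree D = 0) :
    evD (algebraMap K F (c : K)) D = 1 := by
  rw [evD_algebraMap, hD, zpow_zero]

theorem Disj.mul {f g : F} {D : Divisor K F} (hf : Disj f D) (hg : Disj g D) : Disj (f * g) D := by
  refine ⟨mul_ne_zero hf.1 hg.1, fun P hP => ?_⟩
  rw [P.ord_mul hf.1 hg.1, hf.2 P hP, hg.2 P hP, add_zero]

theorem Disj.inv {f : F} {D : Divisor K F} (hf : Disj f D) : Disj f⁻¹ D := by
  refine ⟨inv_ne_zero hf.1, fun P hP => ?_⟩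
  rw [P.ord_inv, hf.2 P hP, neg_zero]

theorem Disj.pow {f : F} {D : Divisor K F} (hf : Disj f D) (n : ℕ) : Disj (f ^ n) D := by
  refine ⟨pow_ne_zero n hf.1, fun P hP => ?_⟩
  rw [ord_pow, hf.2 P hP, mul_zero]

theorem disj_algebraMap (c : Kˣ) (D : Divisor K F) : Disj (algebraMap K F (c : K)) D := by
  refine ⟨?_, fun P _ => ord_algebraMap P _⟩
  rw [Ne, map_eq_zero]
  exact c.ne_zero

end Fermat.Agent.S19.Weil
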