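import Fermat.Agent.S19.Weil.Ev
import Fermat.Agent.GAL.Hecke.PlacesAbove
import Fermat.Agent.GAL.FF.RH.Fibre

/-!
# S19 block W, leaf W4: `ord_v (N f) = ∑_{w | v} ord_w f`  (constants algebraically closed).

PROOF (no completions).  Fix `v`.  `placesAbove_key v` gives the places `pl i` above `v`
(all of them: these are the elements of `v.fiber F'`), elements `ϖ i` with
`ord_{pl i} (ϖ j) = δ_ij`, and the criterion
"`x` regular at all `pl i` ⟹ `x` integral over `O_v`".
1. `c i := ord_v (N (ϖ i)) ≥ 1`: `ϖ i` is integral over `O_v`, so `N (ϖ i) ∈ O_v`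
   (`Algebra.isIntegral_norm`, `O_v` integrally closed).  If `ord_v (N (ϖ i)) = 0`, then
   `(ϖ i)⁻¹ = (N (ϖ i))⁻¹ * (N (ϖ i) / ϖ i)` is integral over `O_v`
   (`N x / x` is integral: it is, up to sign, a polynomial in `x` with coefficients the coefficients
   of the characteristic polynomial / `minpoly`, e.g. `Algebra.norm` `= ± coeff 0` of `charpoly`,
   `Polynomial.aeval x charpoly = 0`, coefficients integral; or use
   `Algebra.norm_eq_prod_embeddings` in an algebraic closure), hence regular at `pl i`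
   (`placesAbove_mem_of_isIntegral`): contradiction with `ord_{pl i} (ϖ i) = 1`.
2. For `f ≠ 0`: `s := f * ∏ i, ϖ i ^ (-(ord_{pl i} f))` is a unit at all places above `v`, so
   `ord_v (N s) = 0` (`ord_norm_eq_zero`), i.e. `ord_v (N f) = ∑ i, c i * ord_{pl i} f`.
3. Apply 2. to `f = algebraMap F F' π`, `ord_v π = 1`: `N f = π ^ n`, `ord_{pl i} f = e_i`
   (`Place.ord_restrict`), so `n = ∑ c i * e i`; but `n = ∑ e i` (`FF.sum_ramificationIndex`) and
   `c i ≥ 1`, `e i ≥ 1`: hence `c i = 1` for all `i`.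
-/

set_option autoImplicit false
set_option linter.unusedSectionVars false

namespace Fermat.Agent.S19.Weil

open AlgebraicCurve Fermat.Agent.Lib.RR Fermat.Agent.GAL.Hecke Fermat.Agent.GAL.FF

variable {K F F' : Type*} [Field K] [IsAlgClosed K] [Field F] [Field F'] [Algebra K F]
  [Algebra K F'] [Algebra F F'] [IsScalarTower K F F'] [FiniteDimensional F F']
  [Algebra.IsSeparable F F'] [IsFF K F] [IsFF K F']

/-- `N x = x * y` with `y` integral. -/
theorem normOrd_exists_mul_eq_norm (v : Place K F) {x : F'}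
    (hx : IsIntegral v.toValuationSubring x) :
    ∃ y : F', IsIntegral v.toValuationSubring y ∧ algebraMap F F' (Algebra.norm F x) = x * y := by
  classical
  rcases eq_or_ne x 0 with rfl | hx0
  · exact ⟨0, isIntegral_zero, by simp⟩
  let E := AlgebraicClosure F'
  let σ₀ : F' →ₐ[F] E := IsScalarTower.toAlgHom F F' E
  have h1 := Algebra.norm_eq_prod_embeddings F E x
  rw [← Finset.mul_prod_erase Finset.univ (fun σ : F' →ₐ[F] E => σ x) (Finset.mem_univ σ₀)] at h1
  have h2 : IsIntegral v.toValuationSubring (∏ σ ∈ Finset.univ.erase σ₀, (σ : F' →ₐ[F] E) x) :=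
    IsIntegral.prod _ fun σ _ => IsIntegral.map (A := F) σ hx
  refine ⟨algebraMap F F' (Algebra.norm F x) / x, ?_, by field_simp⟩
  rw [← isIntegral_algebraMap_iff (B := E) (algebraMap F' E).injective]
  have h3 : algebraMap F' E (algebraMap F F' (Algebra.norm F x) / x)
      = ∏ σ ∈ Finset.univ.erase σ₀, (σ : F' →ₐ[F] E) x := by
    rw [map_div₀, ← IsScalarTower.algebraMap_apply, h1]
    have : σ₀ x = algebraMap F' E x := rfl
    rw [this]
    have hx0' : algebraMap F' E x ≠ 0 := (map_ne_zero _).2 hx0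
    exact mul_div_cancel_left₀ _ hx0'
  rw [h3]
  exact h2

theorem normOrd_one_le (v : Place K F) (w : Place K F') (hw : w.restrict F = v) {x : F'}
    (hx0 : x ≠ 0) (hx : IsIntegral v.toValuationSubring x) (hpos : 0 < w.ord x) :
    1 ≤ v.ord (Algebra.norm F x) := by
  obtain ⟨y, hy, hxy⟩ := normOrd_exists_mul_eq_norm v hx
  have hN0 : Algebra.norm F x ≠ 0 := Algebra.norm_ne_zero_iff.2 hx0
  have hy0 : y ≠ 0 := by
    rintro rfl
    rw [mul_zero] at hxy
    exact hN0 ((map_eq_zero _).1 hxy)
  have hyw : 0 ≤ w.ord y :=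
    Fermat.Agent.S24.ord_nonneg_of_mem w (placesAbove_mem_of_isIntegral v w hw hy)
  have h1 := w.ord_restrict (F := F) (Algebra.norm F x)
  rw [hxy, w.ord_mul hx0 hy0, hw] at h1
  have he : 0 < (w.ramificationIndex F : ℤ) := by
    have := w.ramificationIndex_pos (F := F)
    omega
  by_contra hcon
  push Not at hcon
  nlinarith

theorem ord_norm (v : Place K F) {f : F'} (hf : f ≠ 0) :
    v.ord (Algebra.norm F f) = ∑ w ∈ v.fiber F', w.ord f := by
  classical
  obtain ⟨ι, _, _, pl, ϖ, hϖ0, hord, hsurj, hint, hrestr⟩ := placesAbove_key (F' := F') v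
  have hinj : Function.Injective pl := by
    intro i j hij
    have h1 := hord i i
    rw [hij, hord j i] at h1
    by_contra hne
    rw [if_neg hne, if_pos rfl] at h1
    exact zero_ne_one h1
  have hfib : v.fiber F' = Finset.univ.image pl := by
    ext w
    rw [Place.mem_fiber, Finset.mem_image]
    constructor
    · intro hw
      obtain ⟨i, hi⟩ := hsurj w hw
      exact ⟨i, Finset.mem_univ _, hi⟩
    · rintro ⟨i, -, rfl⟩
      exact hrestr i
  have hsum : ∀ g : Place K F' → ℤ, ∑ w ∈ v.fiber F', g w = ∑ i, g (pl i) := by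
    intro g
    rw [hfib, Finset.sum_image (fun i _ j _ h => hinj h)]
  let c : ι → ℤ := fun i => v.ord (Algebra.norm F (ϖ i))
  have hc1 : ∀ i, 1 ≤ c i := by
    intro i
    refine normOrd_one_le v (pl i) (hrestr i) (hϖ0 i) (hint _ fun j => ?_) (by rw [hord]; simp)
    exact Fermat.Agent.S24.mem_of_ord_nonneg _ (hϖ0 i) (by rw [hord]; split_ifs <;> simp)
  have hN0 : ∀ i, Algebra.norm F (ϖ i) ≠ 0 := fun i => Algebra.norm_ne_zero_iff.2 (hϖ0 i)
  have hgen : ∀ g : F', g ≠ 0 → v.ord (Algebra.norm F g) = ∑ i, c i * (pl i).ord g := by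
    intro g hg
    have hP0 : ∏ i, ϖ i ^ (-(pl i).ord g) ≠ 0 :=
      Finset.prod_ne_zero_iff.2 fun i _ => zpow_ne_zero _ (hϖ0 i)
    have hs0 : g * ∏ i, ϖ i ^ (-(pl i).ord g) ≠ 0 := mul_ne_zero hg hP0
    have hunit : ∀ Q : Place K F', Q.restrict F = v →
        Q.ord (g * ∏ i, ϖ i ^ (-(pl i).ord g)) = 0 := by
      intro Q hQ
      obtain ⟨j, rfl⟩ := hsurj Q hQ
      rw [(pl j).ord_mul hg hP0, placesAbove_ord_prod_zpow _ _ _ hϖ0]
      simp only [hord]
      simp
    have h0 := ord_norm_eq_zero v _ hs0 hunit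
    rw [map_mul, map_prod] at h0
    simp only [Algebra.norm_zpow] at h0
    rw [v.ord_mul (Algebra.norm_ne_zero_iff.2 hg)
      (Finset.prod_ne_zero_iff.2 fun i _ => zpow_ne_zero _ (hN0 i)),
      placesAbove_ord_prod_zpow _ _ _ hN0] at h0
    have h1 : ∑ i, -(pl i).ord g * v.ord (Algebra.norm F (ϖ i))
        = - ∑ i, c i * (pl i).ord g := by
      rw [← Finset.sum_neg_distrib]
      refine Finset.sum_congr rfl fun i _ => ?_
      simp only [c]
      ring
    rw [h1] at h0
    linarith
  obtain ⟨π, hπ⟩ := IsDiscreteValuationRing.exists_irreducible v.toValuationSubring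
  have hπ1 : v.ord (π : F) = 1 := v.ord_coe_irreducible hπ
  have hπ0 : (π : F) ≠ 0 := by
    intro h
    rw [h, Place.ord_zero] at hπ1
    exact zero_ne_one hπ1
  have h3 := hgen (algebraMap F F' π) ((map_ne_zero _).2 hπ0)
  rw [Algebra.norm_algebraMap, ← zpow_natCast, v.ord_zpow, hπ1, mul_one] at h3
  have h4 : ∀ i, (pl i).ord (algebraMap F F' (π : F)) = ((pl i).ramificationIndex F : ℤ) := by
    intro i
    rw [(pl i).ord_restrict, hrestr i, hπ1, mul_one]
  simp only [h4] at h3
  have h5 := sum_ramificationIndex (F' := F') v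
  rw [hsum (fun w => (w.ramificationIndex F : ℤ))] at h5
  have h6 : ∑ i, (c i - 1) * ((pl i).ramificationIndex F : ℤ) = 0 := by
    simp only [sub_mul, one_mul, Finset.sum_sub_distrib]
    rw [← h3, h5, sub_self]
  have h7 : ∀ i, (c i - 1) * ((pl i).ramificationIndex F : ℤ) = 0 := by
    intro i
    exact (Finset.sum_eq_zero_iff_of_nonneg (fun j _ => mul_nonneg (by have := hc1 j; omega)
      (Int.natCast_nonneg _))).1 h6 i (Finset.mem_univ i)
  have hc : ∀ i, c i = 1 := by
    intro i
    have he : ((pl i).ramificationIndex F : ℤ) ≠ 0 := by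
      have := (pl i).ramificationIndex_pos (F := F)
      omega
    have := (mul_eq_zero.1 (h7 i)).resolve_right he
    omega
  rw [hgen f hf, hsum]
  simp only [hc, one_mul]

theorem normOrd_mapRestrict_apply (D : Divisor K F') (v : Place K F) :
    Divisor.mapRestrict F D v = ∑ w ∈ v.fiber F', D w := by
  classical
  induction D using Finsupp.induction_linear with
  | zero => simp
  | add D E hD hE =>
    rw [map_add, Finsupp.add_apply, hD, hE, ← Finset.sum_add_distrib]
    rfl
  | single w n =>
    rw [Divisor.mapRestrict_single]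
    simp only [Finsupp.single_apply]
    rw [Finset.sum_ite_eq]
    simp only [Place.mem_fiber]

/-- `div (N f) = π_* (div f)`. -/
theorem divOf_norm {f : F'} (hf : f ≠ 0) :
    divOf (K := K) (Algebra.norm F f) = Divisor.mapRestrict F (divOf (K := K) f) := by
  ext v
  rw [divOf_apply, ord_norm v hf, normOrd_mapRestrict_apply]
  simp only [divOf_apply]

theorem inertiaDeg_eq_one (w : Place K F') : w.inertiaDeg F = 1 := by
  have h := w.deg_restrict_mul_inertiaDeg (F := F)
  rw [Cor.deg_eq_one_of_isAlgClosed, Cor.deg_eq_one_of_isAlgClosed, one_mul] at h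
  exact h

theorem pushforward_eq_mapRestrict (D : Divisor K F') :
    Divisor.pushforward F D = Divisor.mapRestrict F D := by
  induction D using Finsupp.induction_linear with
  | zero => simp
  | add D E hD hE => rw [map_add, map_add, hD, hE]
  | single w n =>
    rw [Divisor.pushforward_single, Divisor.mapRestrict_single, inertiaDeg_eq_one]
    simp

/-- The hypothesis of the Prelude's `Pic0.pushforwardHom`. -/
theorem pushforwardNormFormula : Divisor.PushforwardNormFormula K F F' := by
  intro f hf D hD v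
  have hDf : D = divOf (K := K) f := by
    ext w
    rw [hD, divOf_apply]
  rw [pushforward_eq_mapRestrict, hDf, ← divOf_norm hf, divOf_apply]

/-- `div (π^* u) = π^* (div u)`. -/
theorem divOf_algebraMap_eq_pullback (u : F) :
    divOf (K := K) (algebraMap F F' u) = Divisor.pullback F' (divOf (K := K) u) := by
  ext w
  rw [divOf_apply, Divisor.pullback_apply_eq_ord (fun v => divOf_apply u v)]

end Fermat.Agent.S19.Weil
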