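import Fermat.Agent.S19.Weil.NormResAlg
import Fermat.Agent.S19.Weil.NormOrd

/-!
# S19 block W, leaf W6: `(N f)(v) = ∏_{w | v} f(w) ^ e_w` for `f` a unit at all `w | v`.

PROOF = dictionary places/primes, exactly as in `FF.sum_ramificationIndex`
(`GAL/FF/RH/Fibre.lean`) and `S24.exists_finset_sum_ord` (`S24/SumFormula.lean`): copy their set-up.
`A := v.toValuationSubring` (a DVR), `B := integralClosure A F'` (Dedekind, finite over `A`,
`IsFractionRing B F'`).  `f` is regular at all places above `v`, hence `f = b ∈ B`
(`placesAbove_key`, 4th clause).  `Algebra.norm F f = algebraMap A F (Algebra.norm A b)`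
(`Algebra.norm_localization A (nonZeroDivisors A)`, or `Algebra.algebraMap_intNorm`-style lemmas).
The primes `P` of `B` over `𝔪_A` are in bijection with `v.fiber F'`
(`Place.ofHeightOneSpectrum`, `centre`, see `exists_finset_sum_ord`);
`ramificationIdx' = ord_w π = e_w` (`S24.ramificationIdx_eq_ord`, `Place.ord_restrict`),
`inertiaDeg' = 1` (`S24.inertiaDeg_eq_one`).  Take `c P := algebraMap K A (ev w_P f)`:
`b - c P ∈ P` by `ord_sub_ev_pos`.  Conclude with `norm_sub_prod_mem` and `ev_eq_iff`
(or: `ev v` is a ring hom on `A` killing `𝔪_A`).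
-/

set_option autoImplicit false
set_option linter.deprecated false
set_option linter.style.haveILetI false
set_option linter.unusedSectionVars false

namespace Fermat.Agent.S19.Weil

open AlgebraicCurve Fermat.Agent.Lib.RR

section Abstract

open IsDedekindDomain Fermat.Agent.S24

/-- The abstract form (same set-up as `S24.exists_finset_sum_ord`): `A` a discrete valuation ring with
uniformiser `t` and residue field `k`, `B` its integral closure in `F`.  If `val w` is the value of
`b ∈ B` at the place `w` for all places `w` of `F` centred at the closed point of `A`, then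
`N_{B/A} b ≡ ∏_w (val w) ^ (ord_w t)` modulo the maximal ideal. -/
theorem NormRes_key {k A F : Type*} [Field k] [IsAlgClosed k] [CommRing A] [IsDomain A]
    [IsDiscreteValuationRing A] [Field F] [Algebra k A] [Algebra A F] [Algebra k F]
    [IsScalarTower k A F] [FaithfulSMul A F]
    (B : Type*) [CommRing B] [IsDedekindDomain B] [Algebra A B] [Algebra B F] [IsScalarTower A B F]
    [IsIntegralClosure B A F] [IsFractionRing B F] [Module.Finite A B] [Algebra k B]
    [IsScalarTower k B F] [IsScalarTower k A B]
    (t : A) (ht : Irreducible t)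
    (hres : Function.Surjective (algebraMap k (A ⧸ IsLocalRing.maximalIdeal A)))
    (b : B) (val : Place k F → k)
    (hval : ∀ w : Place k F, (∀ a : A, algebraMap A F a ∈ w.toValuationSubring) →
      0 < w.ord (algebraMap A F t) →
        algebraMap B F b = algebraMap k F (val w) ∨
          0 < w.ord (algebraMap B F b - algebraMap k F (val w))) :
    ∃ Z : Finset (Place k F),
      (∀ v, v ∈ Z ↔ (∀ a : A, algebraMap A F a ∈ v.toValuationSubring) ∧
        0 < v.ord (algebraMap A F t)) ∧
      Algebra.norm A b - algebraMap k A (∏ w ∈ Z, val w ^ (w.ord (algebraMap A F t)).toNat) ∈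
        IsLocalRing.maximalIdeal A := by
  classical
  have ht0 : t ≠ 0 := ht.ne_zero
  set p : Ideal A := IsLocalRing.maximalIdeal A with hp
  have hpt : p = Ideal.span {t} := ht.maximalIdeal_eq
  have hmax : p.IsMaximal := IsLocalRing.maximalIdeal.isMaximal A
  have hp0 : p ≠ ⊥ := by
    rw [hpt, Ne, Ideal.span_singleton_eq_bot]; exact ht0
  have hinjF : Function.Injective (algebraMap A F) := FaithfulSMul.algebraMap_injective A F
  have hinj : Function.Injective (algebraMap A B) := by
    have h1 := hinjF
    rw [IsScalarTower.algebraMap_eq A B F] at h1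
    exact Function.Injective.of_comp h1
  have : Module.IsTorsionFree A B := by
    have : FaithfulSMul A B := (faithfulSMul_iff_algebraMap_injective A B).mpr hinj
    infer_instance
  have hmem : ∀ P : Ideal B, P ∈ IsDedekindDomain.primesOverFinset p B ↔
      P.IsPrime ∧ P.LiesOver p := by
    intro P
    rw [IsDedekindDomain.mem_primesOverFinset_iff hp0 B]
    exact Iff.rfl
  have hne : ∀ P : Ideal B, P.LiesOver p → P ≠ ⊥ := by
    intro P hP hbot
    have h1 : t ∈ p := by rw [hpt]; exact Ideal.mem_span_singleton_self t
    rw [hP.over, Ideal.mem_comap, hbot, Ideal.mem_bot] at h1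
    exact ht0 (hinj (by rw [h1, map_zero]))
  let G : {P // P ∈ IsDedekindDomain.primesOverFinset p B} → HeightOneSpectrum B := fun P =>
    ⟨P.1, ((hmem P.1).mp P.2).1, hne P.1 ((hmem P.1).mp P.2).2⟩
  let g : {P // P ∈ IsDedekindDomain.primesOverFinset p B} → Place k F := fun P =>
    Place.ofHeightOneSpectrum (K := k) (F := F) (G P)
  have hg : Function.Injective g := by
    intro P Q hPQ
    have h1 := centre_ofHeightOneSpectrum (K := k) (F := F) (G P)
    have h2 := centre_ofHeightOneSpectrum (K := k) (F := F) (G Q)
    have h3 : G P = G Q := by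
      rw [← h1, ← h2]
      congr 1
    exact Subtype.ext (congrArg HeightOneSpectrum.asIdeal h3)
  have hram : ∀ P, ((p.ramificationIdx' P.1 : ℕ) : ℤ) = (g P).ord (algebraMap A F t) := by
    intro P
    have h1 := ramificationIdx_eq_ord (k := k) (F := F) t ht0 (G P)
    rw [← hpt] at h1
    exact h1
  have hgA : ∀ P, (∀ a : A, algebraMap A F a ∈ (g P).toValuationSubring) ∧
      0 < (g P).ord (algebraMap A F t) := by
    intro P
    refine ⟨fun a => ?_, ?_⟩
    · rw [IsScalarTower.algebraMap_apply A B F]
      exact algebraMap_mem_ofHeightOneSpectrum _ _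
    · have h2 : p.ramificationIdx' P.1 ≠ 0 := by
        have := ((hmem P.1).mp P.2).1
        have := ((hmem P.1).mp P.2).2
        exact Ideal.IsDedekindDomain.ramificationIdx'_ne_zero_of_liesOver P.1 hp0
      rw [← hram P]
      exact_mod_cast Nat.pos_of_ne_zero h2
  refine ⟨(IsDedekindDomain.primesOverFinset p B).attach.image g, ?_, ?_⟩
  · intro v
    simp only [Finset.mem_image, Finset.mem_attach, true_and]
    constructor
    · rintro ⟨P, rfl⟩
      exact hgA P
    · rintro ⟨hv, hpos⟩
      have hvB : ∀ b : B, algebraMap B F b ∈ v.toValuationSubring :=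
        integralClosure_le_place v hv
      have hc := ofHeightOneSpectrum_centre v hvB
      have hlies : (centre v hvB).asIdeal.LiesOver p := by
        constructor
        have hle : p ≤ (centre v hvB).asIdeal.comap (algebraMap A B) := by
          rw [hpt, Ideal.span_singleton_le_iff_mem, Ideal.mem_comap, mem_centre_iff]
          right
          rw [← IsScalarTower.algebraMap_apply A B F]
          exact hpos
        exact hmax.eq_of_le (Ideal.comap_ne_top _ (centre v hvB).isPrime.ne_top) hle
      refine ⟨⟨(centre v hvB).asIdeal, (hmem _).mpr ⟨(centre v hvB).isPrime, hlies⟩⟩, ?_⟩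
      exact hc
  · let c : Ideal B → A := fun P =>
      if h : P ∈ IsDedekindDomain.primesOverFinset p B then algebraMap k A (val (g ⟨P, h⟩)) else 0
    have hdeg : ∀ P ∈ IsDedekindDomain.primesOverFinset p B, p.inertiaDeg' P = 1 := by
      intro P hP
      have := ((hmem P).mp hP).1
      have := ((hmem P).mp hP).2
      exact Fermat.Agent.S24.inertiaDeg_eq_one (k := k) F p hres P
    have hc : ∀ P ∈ IsDedekindDomain.primesOverFinset p B, b - algebraMap A B (c P) ∈ P := by
      intro P hP
      have h1 := centre_ofHeightOneSpectrum (K := k) (F := F) (G ⟨P, hP⟩)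
      have h2 : (centre (g ⟨P, hP⟩)
          (algebraMap_mem_ofHeightOneSpectrum (G ⟨P, hP⟩))).asIdeal = P := by
        rw [h1]
      have h3 : c P = algebraMap k A (val (g ⟨P, hP⟩)) := dif_pos hP
      have h4 : algebraMap B F (b - algebraMap A B (c P))
          = algebraMap B F b - algebraMap k F (val (g ⟨P, hP⟩)) := by
        rw [map_sub, h3, ← IsScalarTower.algebraMap_apply A B F,
          ← IsScalarTower.algebraMap_apply k A F]
      have h6 : b - algebraMap A B (c P) ∈ (centre (g ⟨P, hP⟩)
          (algebraMap_mem_ofHeightOneSpectrum (G ⟨P, hP⟩))).asIdeal := by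
        rw [mem_centre_iff, h4]
        rcases hval (g ⟨P, hP⟩) (hgA ⟨P, hP⟩).1 (hgA ⟨P, hP⟩).2 with h5 | h5
        · left
          apply IsFractionRing.injective B F
          rw [h4, h5, sub_self, map_zero]
        · exact Or.inr h5
      rwa [h2] at h6
    have key := norm_sub_prod_mem b c hdeg hc
    have hprod : ∏ P ∈ IsDedekindDomain.primesOverFinset p B, c P ^ p.ramificationIdx' P
        = algebraMap k A (∏ w ∈ (IsDedekindDomain.primesOverFinset p B).attach.image g,
            val w ^ (w.ord (algebraMap A F t)).toNat) := by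
      rw [Finset.prod_image (fun a _ b _ h => hg h), map_prod,
        ← Finset.prod_attach (IsDedekindDomain.primesOverFinset p B)]
      refine Finset.prod_congr rfl fun P _ => ?_
      have h3 : c P.1 = algebraMap k A (val (g P)) := dif_pos P.2
      rw [h3, map_pow, ← hram P, Int.toNat_natCast]
    rw [← hprod]
    exact key

end Abstract

variable {K F F' : Type*} [Field K] [IsAlgClosed K] [Field F] [Field F'] [Algebra K F]
  [Algebra K F'] [Algebra F F'] [IsScalarTower K F F'] [FiniteDimensional F F']
  [Algebra.IsSeparable F F'] [IsFF K F] [IsFF K F']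

theorem ev_norm (v : Place K F) {f : F'} (hf : f ≠ 0) (h : ∀ w ∈ v.fiber F', w.ord f = 0) :
    ev v (Algebra.norm F f) = ∏ w ∈ v.fiber F', ev w f ^ (w.ramificationIndex F) := by
  classical
  let A := v.toValuationSubring
  haveI : IsScalarTower A F F' := inferInstance
  haveI : IsScalarTower K A F' := IsScalarTower.of_algebraMap_eq fun a => by
    change algebraMap K F' a = algebraMap F F' (algebraMap K F a)
    rw [← IsScalarTower.algebraMap_apply]
  let B := integralClosure A F'
  haveI : IsDedekindDomain B := integralClosure.isDedekindDomain A F F'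
  haveI : IsFractionRing B F' := integralClosure.isFractionRing_of_finite_extension F F'
  haveI : Module.Finite A B := IsIntegralClosure.finite A F F' B
  letI : Algebra K B := ((algebraMap A B).comp (algebraMap K A)).toAlgebra
  haveI : IsScalarTower K A B := IsScalarTower.of_algebraMap_eq fun _ => rfl
  haveI : IsScalarTower K B F' := IsScalarTower.of_algebraMap_eq fun a => by
    change algebraMap K F' a = algebraMap A F' (algebraMap K A a)
    rw [← IsScalarTower.algebraMap_apply]
  haveI : FaithfulSMul A F' := by
    rw [faithfulSMul_iff_algebraMap_injective]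
    exact (algebraMap F F').injective.comp (IsFractionRing.injective A F)
  obtain ⟨π, hπ⟩ := IsDiscreteValuationRing.exists_irreducible A
  have hπord : v.ord (π : F) = 1 := v.ord_coe_irreducible hπ
  have hres : Function.Surjective (algebraMap K (A ⧸ IsLocalRing.maximalIdeal A)) := by
    intro y
    obtain ⟨a, rfl⟩ := Ideal.Quotient.mk_surjective y
    have hint : Algebra.IsIntegral K v.ResidueField := inferInstance
    obtain ⟨c, hc⟩ := (IsAlgClosed.algebraMap_bijective_of_isIntegral (k := K)
      (K := v.ResidueField)).2 (IsLocalRing.residue A a)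
    refine ⟨c, ?_⟩
    rw [IsScalarTower.algebraMap_apply K A (A ⧸ IsLocalRing.maximalIdeal A),
      Ideal.Quotient.algebraMap_eq,
      Ideal.Quotient.eq, ← IsLocalRing.residue_eq_zero_iff, map_sub, ← hc]
    exact sub_self _
  -- the fibre
  have hfib : ∀ w : Place K F', w ∈ v.fiber F' ↔
      (∀ a : A, algebraMap A F' a ∈ w.toValuationSubring) ∧ 0 < w.ord (algebraMap A F' π) := by
    intro w
    rw [Place.mem_fiber]
    constructor
    · intro hw
      refine ⟨fun a => ?_, ?_⟩
      · have : (a : F) ∈ (w.restrict F).toValuationSubring := by rw [hw]; exact a.2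
        exact (w.mem_restrict_iff).mp this
      · change 0 < w.ord (algebraMap F F' (π : F))
        rw [w.ord_restrict, hw, hπord, mul_one]
        exact_mod_cast w.ramificationIndex_pos (F := F)
    · rintro ⟨h1, -⟩
      apply Place.ext
      symm
      refine ValuationSubring.eq_of_le_of_ne_top _ ?_ (w.restrict F).ne_top'
      intro a ha
      rw [Place.mem_restrict_iff]
      exact h1 ⟨a, ha⟩
  -- `f ∈ B`
  have hfint : IsIntegral A f := by
    obtain ⟨ι, _, _, pl, ϖ, -, -, -, h4, h5⟩ :=
      Fermat.Agent.GAL.Hecke.placesAbove_key (F' := F') v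
    exact h4 f fun i => (mem_iff_ord _ _).2 (Or.inr (h (pl i) (Place.mem_fiber.2 (h5 i))).ge)
  let b : B := ⟨f, hfint⟩
  have hb : algebraMap B F' b = f := rfl
  -- the norm
  have hnorm : Algebra.norm F f = algebraMap A F (Algebra.norm A b) := by
    haveI := IsIntegralClosure.isLocalization A F F' B
    rw [← hb]
    exact Algebra.norm_localization A (nonZeroDivisors A) b
  obtain ⟨Z, hZ, hkey⟩ := NormRes_key (k := K) (A := A) (F := F') B π hπ hres b
    (fun w => ev w f) (by
      intro w h1 h2
      have hw : w ∈ v.fiber F' := (hfib w).2 ⟨h1, h2⟩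
      exact ord_sub_ev_pos w ((mem_iff_ord _ _).2 (Or.inr (h w hw).ge)))
  have hZeq : Z = v.fiber F' := by
    ext w
    rw [hZ, hfib]
  rw [hZeq] at hkey
  have hexp : ∏ w ∈ v.fiber F', ev w f ^ (w.ord (algebraMap A F' π)).toNat
      = ∏ w ∈ v.fiber F', ev w f ^ (w.ramificationIndex F) := by
    refine Finset.prod_congr rfl fun w hw => ?_
    have hw' := Place.mem_fiber.mp hw
    congr 1
    change (w.ord (algebraMap F F' (π : F))).toNat = _
    rw [w.ord_restrict, hw', hπord, mul_one, Int.toNat_natCast]
  rw [hexp] at hkey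
  rw [hnorm, ev_eq_iff v (f := algebraMap A F (Algebra.norm A b)) (Algebra.norm A b).2]
  generalize (∏ w ∈ v.fiber F', ev w f ^ (w.ramificationIndex F)) = a at hkey ⊢
  generalize Algebra.norm A b = n at hkey ⊢
  rw [hπ.maximalIdeal_eq, Ideal.mem_span_singleton] at hkey
  obtain ⟨z, hz⟩ := hkey
  have hz' : algebraMap A F n - algebraMap K F a = (π : F) * (z : F) :=
    congrArg (algebraMap A F) hz
  by_cases h0 : (z : F) = 0
  · left
    rw [h0, mul_zero] at hz'
    exact sub_eq_zero.1 hz'
  · right
    have hπ0 : (π : F) ≠ 0 := fun h => hπ.ne_zero (Subtype.ext h)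
    rw [hz', v.ord_mul hπ0 h0, hπord]
    have := Fermat.Agent.S24.ord_nonneg_of_mem v z.2
    omega

theorem evU_norm (v : Place K F) {f : F'} (hf : f ≠ 0) (h : ∀ w ∈ v.fiber F', w.ord f = 0) :
    evU v (Algebra.norm F f) = ∏ w ∈ v.fiber F', evU w f ^ (w.ramificationIndex F) := by
  have hN0 : Algebra.norm F f ≠ 0 := Algebra.norm_ne_zero_iff.mpr hf
  have hord : v.ord (Algebra.norm F f) = 0 := by
    rw [ord_norm v hf]
    exact Finset.sum_eq_zero h
  apply Units.ext
  rw [evU_val v hN0 hord, ev_norm v hf h, Units.coe_prod]
  refine Finset.prod_congr rfl fun w hw => ?_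
  rw [Units.val_pow_eq_pow_val, evU_val w hf (h w hw)]

end Fermat.Agent.S19.Weil
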