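import Mathlib

/-!
# S19 block W, leaf W5 (Mathlib only): the norm modulo the maximal ideal.

`A` a discrete valuation ring with maximal ideal `𝔪`, `B` a Dedekind domain, finite and torsion free
(hence free) over `A`, all residue degrees equal to one.  If `b ≡ c_P mod P` (`c_P ∈ A`) for every
prime `P` of `B` over `𝔪` then `N_{B/A}(b) ≡ ∏_P c_P ^ e_P mod 𝔪`.

PROOF.  `κ = A ⧸ 𝔪`, `V = B ⧸ 𝔪 B`.
(a) `norm_quotient_mk`: `N_{V/κ}(b mod 𝔪 B) = N_{B/A}(b) mod 𝔪`: copy the proof of Mathlib's
    `Algebra.trace_quotient_mk` (`Mathlib/RingTheory/Trace/Quotient.lean`), replacing the trace by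
    the determinant (`Algebra.norm_eq_matrix_det`, `RingHom.map_det`, `basisQuotient`), or use
    `LinearMap.det_baseChange`.
(b) `det_eq_pow_of_isNilpotent`: `det (c • 1 + N) = c ^ finrank` for `N` nilpotent
    (`LinearMap.isNilpotent_iff_charpoly`, evaluate the characteristic polynomial).
(c) `V ≃ₗ[κ] Π_P B ⧸ P ^ e_P` (`Ideal.Factors.piQuotientLinearEquiv`; it is also a ring
    isomorphism so it conjugates multiplication by `b` into the product of the multiplications by
    `b`): `LinearMap.det_conj`, `LinearMap.det_pi`; on `B ⧸ P ^ e_P`, `b - c_P` is nilpotent and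
    `finrank κ (B ⧸ P ^ e_P) = e_P * f_P = e_P` (`Ideal.Factors.finrank_pow_ramificationIdx`).
    `IsDedekindDomain.primesOverFinset p B` is by definition
    `(factors (map (algebraMap A B) p)).toFinset`.
The primed names (`ramificationIdx'`, `inertiaDeg'`) are the ones used in `S24/SumFormula.lean`;
`set_option linter.deprecated false` is harmless.
-/

set_option autoImplicit false
set_option linter.deprecated false

namespace Fermat.Agent.S19.Weil

open Matrix in
theorem NormResAlg_det_pi {ι : Type*} [Fintype ι] {R : Type*} [CommRing R]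
    {M : ι → Type*} [∀ i, AddCommGroup (M i)] [∀ i, Module R (M i)] [∀ i, Module.Free R (M i)]
    [∀ i, Module.Finite R (M i)] (f : ∀ i, M i →ₗ[R] M i) :
    LinearMap.det (LinearMap.pi (fun i => (f i).comp (LinearMap.proj i))) =
      ∏ i, LinearMap.det (f i) := by
  classical
  let _ : LinearOrder ι := LinearOrder.lift' (Fintype.equivFin ι) (Fintype.equivFin ι).injective
  let b := fun i => Module.Free.chooseBasis R (M i)
  let B := Pi.basis b
  have hentry : ∀ i x j y, LinearMap.toMatrix B B
      (LinearMap.pi (fun i => (f i).comp (LinearMap.proj i))) ⟨i, x⟩ ⟨j, y⟩ =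
        (b i).repr (f i ((Pi.single j (b j y) : ∀ i, M i) i)) x := by
    intro i x j y
    rw [LinearMap.toMatrix_apply]
    simp only [B, Pi.basis_apply, Pi.basis_repr, LinearMap.pi_apply, LinearMap.coe_comp,
      Function.comp_apply, LinearMap.coe_proj, Function.eval]
  have hT : BlockTriangular (LinearMap.toMatrix B B
      (LinearMap.pi (fun i => (f i).comp (LinearMap.proj i)))) Sigma.fst := by
    rintro ⟨i, x⟩ ⟨j, y⟩ hlt
    rw [hentry]
    have hne : i ≠ j := fun h => by
      simp only at hlt
      exact absurd (h ▸ hlt) (lt_irrefl _)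
    rw [Pi.single_eq_of_ne hne]
    simp
  rw [← LinearMap.det_toMatrix B, hT.det_fintype]
  refine Finset.prod_congr rfl fun a _ => ?_
  rw [← LinearMap.det_toMatrix (b a)]
  have : (LinearMap.toMatrix B B
      (LinearMap.pi (fun i => (f i).comp (LinearMap.proj i)))).toSquareBlock Sigma.fst a =
      (LinearMap.toMatrix (b a) (b a) (f a)).submatrix (Equiv.sigmaSubtype a)
        (Equiv.sigmaSubtype a) := by
    ext ⟨⟨i, x⟩, hi⟩ ⟨⟨j, y⟩, hj⟩
    simp only at hi hj
    subst hi
    subst hj
    rw [toSquareBlock_def]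
    simp only [of_apply, submatrix_apply]
    rw [hentry, LinearMap.toMatrix_apply]
    simp
  rw [this, Matrix.det_submatrix_equiv_self]

attribute [local instance] Ideal.Quotient.field in
/-- (a) -/
theorem norm_quotient_mk {A B : Type*} [CommRing A] [IsLocalRing A] [CommRing B] [Algebra A B]
    [Module.Finite A B] [Module.Free A B] (b : B) :
    Algebra.norm (A ⧸ IsLocalRing.maximalIdeal A)
        (Ideal.Quotient.mk ((IsLocalRing.maximalIdeal A).map (algebraMap A B)) b) =
      Ideal.Quotient.mk (IsLocalRing.maximalIdeal A) (Algebra.norm A b) := by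
  classical
  let ι := Module.Free.ChooseBasisIndex A B
  let bb : Module.Basis ι A B := Module.Free.chooseBasis A B
  rw [Algebra.norm_eq_matrix_det bb, Algebra.norm_eq_matrix_det (IsLocalRing.basisQuotient bb),
    RingHom.map_det]
  congr 1
  ext i j
  simp only [Algebra.leftMulMatrix_apply, Algebra.coe_lmul_eq_mul, LinearMap.toMatrix_apply,
    IsLocalRing.basisQuotient_apply, LinearMap.mul_apply', RingHom.mapMatrix_apply, Matrix.map_apply,
    ← map_mul, IsLocalRing.basisQuotient_repr]

/-- (b) -/
theorem det_eq_pow_of_isNilpotent {κ V : Type*} [Field κ] [AddCommGroup V] [Module κ V]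
    [FiniteDimensional κ V] (T : V →ₗ[κ] V) (c : κ) (h : IsNilpotent (T - c • LinearMap.id)) :
    LinearMap.det T = c ^ Module.finrank κ V := by
  have h' : IsNilpotent (c • LinearMap.id - T : Module.End κ V) := by
    have : (c • LinearMap.id - T : Module.End κ V) = -(T - c • LinearMap.id) := by abel
    rw [this]
    exact h.neg
  have h1 := (LinearMap.isNilpotent_iff_charpoly _).1 h'
  have h2 := LinearMap.eval_charpoly (c • LinearMap.id - T : Module.End κ V) c
  rw [h1] at h2
  simp only [Polynomial.eval_pow, Polynomial.eval_X] at h2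
  rw [h2]
  congr 1
  ext v
  simp [Module.algebraMap_end_apply]


section
variable {A B : Type*} [CommRing A]
    [CommRing B] [IsDedekindDomain B] [Algebra A B] [Module.Finite A B]

attribute [local instance] Ideal.Quotient.field

theorem NormResAlg_det_factor (p : Ideal A) [p.IsMaximal] (b : B) (c : A)
    (P : (UniqueFactorizationMonoid.factors (Ideal.map (algebraMap A B) p)).toFinset)
    (hdeg : p.inertiaDeg' P.1 = 1) (hc : b - algebraMap A B c ∈ P.1) :
    LinearMap.det ((Algebra.lmul (A ⧸ p) (B ⧸ (P : Ideal B) ^ p.ramificationIdx' P.1))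
        (Ideal.Quotient.mk _ b)) = Ideal.Quotient.mk p c ^ p.ramificationIdx' P.1 := by
  rw [det_eq_pow_of_isNilpotent _ (Ideal.Quotient.mk p c), Ideal.Factors.finrank_pow_ramificationIdx,
    hdeg, mul_one]
  refine ⟨p.ramificationIdx' P.1, ?_⟩
  have h1 : (Algebra.lmul (A ⧸ p) (B ⧸ (P : Ideal B) ^ p.ramificationIdx' P.1))
        (Ideal.Quotient.mk _ b) - Ideal.Quotient.mk p c • LinearMap.id =
      (Algebra.lmul (A ⧸ p) (B ⧸ (P : Ideal B) ^ p.ramificationIdx' P.1))
        (Ideal.Quotient.mk _ (b - algebraMap A B c)) := by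
    refine LinearMap.ext fun x => ?_
    simp only [LinearMap.sub_apply, Algebra.coe_lmul_eq_mul, LinearMap.mul_apply',
      LinearMap.smul_apply, LinearMap.id_apply, map_sub]
    rw [Algebra.smul_def]
    rfl
  rw [h1, ← map_pow, ← map_pow, Ideal.Quotient.eq_zero_iff_mem.2 (Ideal.pow_mem_pow hc _), map_zero]

theorem NormResAlg_det_prod (p : Ideal A) [p.IsMaximal] (hp : Ideal.map (algebraMap A B) p ≠ ⊥)
    (b : B) :
    LinearMap.det ((Algebra.lmul (A ⧸ p) (B ⧸ Ideal.map (algebraMap A B) p))
      (Ideal.Quotient.mk _ b)) =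
    ∏ P : (UniqueFactorizationMonoid.factors (Ideal.map (algebraMap A B) p)).toFinset,
      LinearMap.det ((Algebra.lmul (A ⧸ p) (B ⧸ (P : Ideal B) ^ p.ramificationIdx' P.1))
        (Ideal.Quotient.mk _ b)) := by
  rw [← NormResAlg_det_pi, ← LinearMap.det_conj _ (Ideal.Factors.piQuotientLinearEquiv B p hp)]
  congr 1
  apply LinearMap.ext
  intro x
  obtain ⟨y, rfl⟩ := (Ideal.Factors.piQuotientLinearEquiv B p hp).surjective x
  funext P
  simp only [LinearMap.coe_comp, LinearEquiv.coe_coe, Function.comp_apply,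
    LinearEquiv.symm_apply_apply, LinearMap.pi_apply, LinearMap.coe_proj, Function.eval,
    Algebra.coe_lmul_eq_mul, LinearMap.mul_apply']
  have h2 : ∀ z, Ideal.Factors.piQuotientLinearEquiv B p hp z = Ideal.Factors.piQuotientEquiv p hp z :=
    fun _ => rfl
  rw [h2, h2, map_mul, Ideal.Factors.piQuotientEquiv_mk]
  rfl

end

attribute [local instance] Ideal.Quotient.field in
/-- the statement used by `NormRes.lean`. -/
theorem norm_sub_prod_mem {A B : Type*} [CommRing A] [IsDomain A] [IsDiscreteValuationRing A]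
    [CommRing B] [IsDedekindDomain B] [Algebra A B] [Module.Finite A B]
    [Module.IsTorsionFree A B] (b : B) (c : Ideal B → A)
    (hdeg : ∀ P ∈ IsDedekindDomain.primesOverFinset (IsLocalRing.maximalIdeal A) B,
      (IsLocalRing.maximalIdeal A).inertiaDeg' P = 1)
    (hc : ∀ P ∈ IsDedekindDomain.primesOverFinset (IsLocalRing.maximalIdeal A) B,
      b - algebraMap A B (c P) ∈ P) :
    Algebra.norm A b - ∏ P ∈ IsDedekindDomain.primesOverFinset (IsLocalRing.maximalIdeal A) B,
        c P ^ (IsLocalRing.maximalIdeal A).ramificationIdx' P ∈ IsLocalRing.maximalIdeal A := by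
  classical
  have hfree : Module.Free A B := Module.free_of_finite_type_torsion_free'
  have hinj : Function.Injective (algebraMap A B) := FaithfulSMul.algebraMap_injective A B
  have hp : Ideal.map (algebraMap A B) (IsLocalRing.maximalIdeal A) ≠ ⊥ := by
    rw [Ne, Ideal.map_eq_bot_iff_of_injective hinj]
    exact IsDiscreteValuationRing.not_a_field A
  rw [← Ideal.Quotient.eq, ← norm_quotient_mk, Algebra.norm_apply, NormResAlg_det_prod _ hp, map_prod]
  unfold IsDedekindDomain.primesOverFinset at hdeg hc ⊢
  rw [← Finset.prod_coe_sort (UniqueFactorizationMonoid.factors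
    (Ideal.map (algebraMap A B) (IsLocalRing.maximalIdeal A))).toFinset
    (fun P => Ideal.Quotient.mk (IsLocalRing.maximalIdeal A)
      (c P ^ (IsLocalRing.maximalIdeal A).ramificationIdx' P))]
  refine Finset.prod_congr rfl fun P _ => ?_
  rw [NormResAlg_det_factor _ b (c P.1) P (hdeg P.1 P.2) (hc P.1 P.2), map_pow]

end Fermat.Agent.S19.Weil
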