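import Fermat.Agent.S19.Weil.Ev
import Fermat.Agent.GAL.FF.RH.RationalAux

/-!
# S19 block W, leaf W8: Weil reciprocity on the projective line for the pair `(h, u)`.

`E = K(u)`.  For `a : K` the function `u - a` is again a generator
(`FF.RationalAux_adjoin_sub_const`), so it has exactly one zero `Z a`, which is simple
(`FF.RationalAux_exists_unique_zero`); the same for `u⁻¹` (`S24.adjoin_inv_eq`,
`S24.transcendental_inv`): the place `Zinf`.
* every place `Q` is `Zinf` (if `ord_Q u < 0`) or `Z (ev Q u)` (`ord_sub_ev_pos`);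
* `ord_{Z a} (u - b) = if a = b then 1 else 0`, `ord_{Zinf} (u - b) = -1`, `ev (Z a) u = a`;
* every `h ≠ 0` in `E` is `c * ∏_{a ∈ s} (u - a) ^ n a` (`IntermediateField.mem_adjoin_simple_iff`,
  `IsAlgClosed.splits`, `Polynomial.eq_prod_roots_of_splits_id`).
For such an `h` without zero or pole at `Z 0` and `Zinf`: `n 0 = 0`, `∑ n a = 0`,
`div h = ∑ n a • pt (Z a)`, `div u = pt (Z 0) - pt Zinf`,
`u(div h) = ∏ a ^ n a`, `h(Z 0) = c ∏ (-a) ^ n a = c ∏ a ^ n a`,
`h(Zinf) = c` (write `h = c ∏ (1 - a u⁻¹) ^ n a`).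

IMPLEMENTATION: we use the tame symbol `(u, h)_Q = (-1)^(ord u ord h) (u^(ord h) / h^(ord u))(Q)`, which is
multiplicative in `h` without any disjointness hypothesis, and check the product formula on the
generators `c`, `u - a` of `K(u)ˣ`.
-/

set_option autoImplicit false

namespace Fermat.Agent.S19.Weil

open AlgebraicCurve Fermat.Agent.Lib.RR IntermediateField Fermat.Agent.GAL.RED Fermat.Agent.GAL.FF

variable {K E : Type*} [Field K] [IsAlgClosed K] [Field E] [Algebra K E] [IsFF K E]

/-! ### (ii) multiplicative induction principle for `K(u)ˣ` -/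

omit [IsFF K E] in
theorem P1_transcendental_sub {u : E} (hu : Transcendental K u) (a : K) :
    Transcendental K (u - algebraMap K E a) := by
  intro h
  apply hu
  have := h.add (isAlgebraic_algebraMap (R := K) (A := E) a)
  rwa [sub_add_cancel] at this

omit [IsFF K E] [IsAlgClosed K] in
theorem P1_ne_zero {u : E} (hu : Transcendental K u) : u ≠ 0 := by
  rintro rfl
  exact hu isAlgebraic_zero

omit [IsFF K E] in
theorem P1_induction_poly {u : E} (hu : Transcendental K u) {P : E → Prop}
    (hc : ∀ c : K, c ≠ 0 → P (algebraMap K E c))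
    (hlin : ∀ a : K, P (u - algebraMap K E a))
    (hmul : ∀ f g : E, f ≠ 0 → g ≠ 0 → P f → P g → P (f * g)) :
    ∀ (n : ℕ) (p : Polynomial K), p.natDegree = n → p ≠ 0 → P (Polynomial.aeval u p) := by
  intro n
  induction n with
  | zero =>
    intro p hp hp0
    rw [Polynomial.eq_C_of_natDegree_eq_zero hp] at hp0 ⊢
    rw [Polynomial.aeval_C]
    exact hc _ (fun h => hp0 (by rw [h, Polynomial.C_0]))
  | succ n ih =>
    intro p hp hp0
    have hdeg : p.degree ≠ 0 := by
      intro h
      have h1 : p.natDegree = 0 := Polynomial.natDegree_eq_of_degree_eq_some h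
      omega
    obtain ⟨a, ha⟩ := IsAlgClosed.exists_root p hdeg
    obtain ⟨q, rfl⟩ := Polynomial.dvd_iff_isRoot.mpr ha
    have hq0 : q ≠ 0 := right_ne_zero_of_mul hp0
    have hX : (Polynomial.X - Polynomial.C a : Polynomial K) ≠ 0 := left_ne_zero_of_mul hp0
    have hqn : q.natDegree = n := by
      rw [Polynomial.natDegree_mul hX hq0, Polynomial.natDegree_X_sub_C] at hp
      omega
    rw [map_mul, map_sub, Polynomial.aeval_X, Polynomial.aeval_C]
    refine hmul _ _ (P1_ne_zero (P1_transcendental_sub hu a)) ?_ (hlin a) (ih q hqn hq0)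
    intro h
    exact hq0 ((transcendental_iff.mp hu) q h)

omit [IsFF K E] in
theorem P1_induction {u : E} (hu : Transcendental K u) (htop : K⟮u⟯ = ⊤) {P : E → Prop}
    (hc : ∀ c : K, c ≠ 0 → P (algebraMap K E c))
    (hlin : ∀ a : K, P (u - algebraMap K E a))
    (hmul : ∀ f g : E, f ≠ 0 → g ≠ 0 → P f → P g → P (f * g))
    (hinv : ∀ f : E, f ≠ 0 → P f → P f⁻¹) : ∀ h : E, h ≠ 0 → P h := by
  intro h hh
  have hmem : h ∈ K⟮u⟯ := by rw [htop]; trivial
  obtain ⟨r, s, rfl⟩ := (mem_adjoin_simple_iff K h).mp hmem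
  have hr : Polynomial.aeval u r ≠ 0 := fun h0 => hh (by rw [h0, zero_div])
  have hs : Polynomial.aeval u s ≠ 0 := fun h0 => hh (by rw [h0, div_zero])
  have hr0 : r ≠ 0 := fun h0 => hr (by rw [h0, map_zero])
  have hs0 : s ≠ 0 := fun h0 => hs (by rw [h0, map_zero])
  rw [div_eq_mul_inv]
  exact hmul _ _ hr (inv_ne_zero hs) (P1_induction_poly hu hc hlin hmul _ r rfl hr0)
    (hinv _ hs (P1_induction_poly hu hc hlin hmul _ s rfl hs0))

/-! ### (i) orders and values of `u - b` -/

omit [IsFF K E] [IsAlgClosed K] in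
theorem P1_ord_sub_of_pos {u : E} (hu : Transcendental K u) {a b : K} (hab : b ≠ a)
    {Q : Place K E} (hQ : 0 < Q.ord (u - algebraMap K E a)) :
    Q.ord (u - algebraMap K E b) = 0 := by
  have h1 : u - algebraMap K E b = algebraMap K E (a - b) + (u - algebraMap K E a) := by
    rw [map_sub]; ring
  have h2 : algebraMap K E (a - b) ≠ 0 := by
    rw [Ne, map_eq_zero, sub_eq_zero]
    exact fun h => hab h.symm
  have hua : u - algebraMap K E a ≠ 0 := by
    intro h
    rw [h, Place.ord_zero] at hQ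
    exact lt_irrefl _ hQ
  rw [h1, ord_add_eq_of_lt Q h2 hua (by rw [ord_algebraMap]; exact hQ), ord_algebraMap]

omit [IsFF K E] [IsAlgClosed K] in
theorem P1_ord_sub_of_neg {u : E} (b : K) {Q : Place K E} (hQ : Q.ord u < 0) :
    Q.ord (u - algebraMap K E b) = Q.ord u := by
  have hu0 : u ≠ 0 := by
    rintro rfl
    rw [Place.ord_zero] at hQ
    exact lt_irrefl _ hQ
  by_cases hb : b = 0
  · rw [hb, map_zero, sub_zero]
  · have h2 : algebraMap K E (-b) ≠ 0 := by
      rw [Ne, map_eq_zero, neg_eq_zero]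
      exact hb
    have h1 : u - algebraMap K E b = u + algebraMap K E (-b) := by
      rw [map_neg]; ring
    rw [h1, ord_add_eq_of_lt Q hu0 h2 (by rw [ord_algebraMap]; exact hQ)]

theorem P1_ev_sub_of_pos {u : E} (hu : Transcendental K u) (a b : K)
    {Q : Place K E} (hQ : 0 < Q.ord (u - algebraMap K E a)) :
    ev Q (u - algebraMap K E b) = a - b := by
  have hmem : u - algebraMap K E b ∈ Q.toValuationSubring := by
    rw [mem_iff_ord]
    right
    by_cases hab : b = a
    · rw [hab]; exact hQ.le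
    · rw [P1_ord_sub_of_pos hu hab hQ]
  rw [ev_eq_iff Q hmem]
  right
  have : u - algebraMap K E b - algebraMap K E (a - b) = u - algebraMap K E a := by
    rw [map_sub]; ring
  rw [this]
  exact hQ

/-- classification of the places of `K(u)`. -/
theorem P1_classify {u : E} (hu : Transcendental K u) (Q : Place K E) :
    Q.ord u < 0 ∨ ∃ a : K, 0 < Q.ord (u - algebraMap K E a) := by
  by_cases h : Q.ord u < 0
  · exact Or.inl h
  · right
    have hmem : u ∈ Q.toValuationSubring := by
      rw [mem_iff_ord]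
      right
      omega
    refine ⟨ev Q u, ?_⟩
    rcases ord_sub_ev_pos Q hmem with h1 | h1
    · exact absurd (h1 ▸ isAlgebraic_algebraMap (R := K) (A := E) (ev Q u)) hu
    · exact h1

/-! ### the tame symbol -/

theorem P1_evU_zpow (Q : Place K E) (f : E) (n : ℤ) : evU Q (f ^ n) = evU Q f ^ n := by
  obtain ⟨m, rfl | rfl⟩ := n.eq_nat_or_neg
  · rw [zpow_natCast, zpow_natCast, evU_pow]
  · rw [zpow_neg, zpow_neg, zpow_natCast, zpow_natCast, evU_inv, evU_pow]

/-- the tame symbol `(u, h)_Q`. -/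
noncomputable def P1symb (u h : E) (Q : Place K E) : Kˣ :=
  (-1) ^ (Q.ord u * Q.ord h) * evU Q (u ^ Q.ord h / h ^ Q.ord u)

theorem P1symb_mul {u f g : E} (hu : u ≠ 0) (hf : f ≠ 0) (hg : g ≠ 0) (Q : Place K E) :
    P1symb u (f * g) Q = P1symb u f Q * P1symb u g Q := by
  unfold P1symb
  rw [Q.ord_mul hf hg]
  have h1 : u ^ (Q.ord f + Q.ord g) / (f * g) ^ Q.ord u =
      (u ^ Q.ord f / f ^ Q.ord u) * (u ^ Q.ord g / g ^ Q.ord u) := by
    rw [zpow_add₀ hu, mul_zpow, div_mul_div_comm]
  have hord : ∀ k : E, k ≠ 0 → Q.ord (u ^ Q.ord k / k ^ Q.ord u) = 0 := by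
    intro k hk
    rw [ord_div Q (zpow_ne_zero _ hu) (zpow_ne_zero _ hk), Q.ord_zpow, Q.ord_zpow]
    ring
  have hne : ∀ k : E, k ≠ 0 → u ^ Q.ord k / k ^ Q.ord u ≠ 0 :=
    fun k hk => div_ne_zero (zpow_ne_zero _ hu) (zpow_ne_zero _ hk)
  rw [h1, evU_mul Q (hne f hf) (hord f hf) (hne g hg) (hord g hg), mul_add, zpow_add,
    mul_mul_mul_comm]

theorem P1symb_of_disj {u h : E} {Q : Place K E} (hd : Q.ord h = 0 ∨ Q.ord u = 0) :
    P1symb u h Q = evU Q u ^ Q.ord h / evU Q h ^ Q.ord u := by
  unfold P1symb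
  rcases hd with hd | hd
  · rw [hd, mul_zero, zpow_zero, zpow_zero, zpow_zero, one_mul, one_div, one_div, evU_inv,
      P1_evU_zpow]
  · rw [hd, zero_mul, zpow_zero, zpow_zero, zpow_zero, one_mul, div_one, div_one, P1_evU_zpow]

theorem P1symb_mulSupport (u h : E) :
    Function.mulSupport (P1symb (K := K) u h) ⊆ {Q : Place K E | Q.ord u ≠ 0 ∨ Q.ord h ≠ 0} := by
  intro Q hQ
  rw [Function.mem_mulSupport] at hQ
  by_contra hcon
  simp only [Set.mem_ofPred_eq, not_or, not_not] at hcon
  apply hQ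
  rw [P1symb_of_disj (Or.inl hcon.2), hcon.1, hcon.2, zpow_zero, zpow_zero, div_one]

theorem P1_finite (u h : E) : {Q : Place K E | Q.ord u ≠ 0 ∨ Q.ord h ≠ 0}.Finite := by
  refine ((Finset.finite_toSet (divOf (K := K) u).support).union
    (Finset.finite_toSet (divOf (K := K) h).support)).subset ?_
  intro Q hQ
  rw [Set.mem_union, Finset.mem_coe, Finset.mem_coe, Finsupp.mem_support_iff,
    Finsupp.mem_support_iff, divOf_apply, divOf_apply]
  exact hQ

/-- the product of all the symbols. -/
noncomputable def P1T (u h : E) : Kˣ := ∏ᶠ Q : Place K E, P1symb u h Q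

theorem P1T_eq_prod (u h : E) (s : Finset (Place K E))
    (hs : ∀ Q : Place K E, (Q.ord u ≠ 0 ∨ Q.ord h ≠ 0) → Q ∈ s) :
    P1T (K := K) u h = ∏ Q ∈ s, P1symb u h Q :=
  finprod_eq_prod_of_mulSupport_subset _ fun Q hQ => hs Q (P1symb_mulSupport u h hQ)

theorem P1T_mul {u f g : E} (hu : u ≠ 0) (hf : f ≠ 0) (hg : g ≠ 0) :
    P1T (K := K) u (f * g) = P1T (K := K) u f * P1T (K := K) u g := by
  unfold P1T
  rw [← finprod_mul_distrib ((P1_finite u f).subset (P1symb_mulSupport u f))
    ((P1_finite u g).subset (P1symb_mulSupport u g))]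
  exact finprod_congr fun Q => P1symb_mul hu hf hg Q

theorem P1T_of_disj {u h : E} (hd : ∀ Q : Place K E, Q.ord h = 0 ∨ Q.ord u = 0) :
    P1T (K := K) u h = evD u (divOf (K := K) h) / evD h (divOf (K := K) u) := by
  classical
  set s : Finset (Place K E) := (divOf (K := K) u).support ∪ (divOf (K := K) h).support with hs
  rw [P1T_eq_prod u h s, evD_eq_prod u _ s Finset.subset_union_right,
    evD_eq_prod h _ s Finset.subset_union_left, ← Finset.prod_div_distrib]
  · refine Finset.prod_congr rfl fun Q _ => ?_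
    rw [P1symb_of_disj (hd Q), divOf_apply, divOf_apply]
  · intro Q hQ
    rw [hs, Finset.mem_union, Finsupp.mem_support_iff, Finsupp.mem_support_iff, divOf_apply,
      divOf_apply]
    exact hQ

theorem P1T_const (u : E) {c : K} (hc : c ≠ 0) : P1T (K := K) u (algebraMap K E c) = 1 := by
  rw [P1T_of_disj (fun Q => Or.inl (ord_algebraMap Q c)), divOf_algebraMap, evD_zero]
  have := evD_algebraMap_of_degree_eq_zero (F := E) (Units.mk0 c hc)
    (degree_divOf (K := K) u)
  rw [Units.val_mk0] at this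
  rw [this, div_one]

theorem P1T_self {u : E} (hu : Transcendental K u) (htop : K⟮u⟯ = ⊤) : P1T (K := K) u u = 1 := by
  classical
  have hu0 := P1_ne_zero hu
  obtain ⟨Z0, hZ0, hZ0u⟩ := RationalAux_exists_unique_zero hu htop
  obtain ⟨Zi, hZi, hZiu⟩ := RationalAux_exists_unique_zero
    (Fermat.Agent.S24.transcendental_inv hu) (by rw [Fermat.Agent.S24.adjoin_inv_eq, htop])
  have hZi' : Zi.ord u = -1 := by
    rw [Zi.ord_inv] at hZi
    omega
  have h0i : Z0 ≠ Zi := by
    rintro rfl
    omega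
  rw [P1T_eq_prod u u {Z0, Zi}, Finset.prod_pair h0i]
  · unfold P1symb
    rw [hZ0, hZi', div_self (zpow_ne_zero _ hu0), div_self (zpow_ne_zero _ hu0), evU_one, evU_one]
    norm_num
  · intro Q hQ
    have hQ' : Q.ord u ≠ 0 := by tauto
    rw [Finset.mem_insert, Finset.mem_singleton]
    rcases lt_or_gt_of_ne hQ' with h | h
    · right
      exact hZiu Q (by rw [Q.ord_inv]; omega)
    · left
      exact hZ0u Q h

theorem P1T_lin {u : E} (hu : Transcendental K u) (htop : K⟮u⟯ = ⊤) (a : K) :
    P1T (K := K) u (u - algebraMap K E a) = 1 := by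
  classical
  by_cases ha : a = 0
  · rw [ha, map_zero, sub_zero]
    exact P1T_self hu htop
  have hu0 := P1_ne_zero hu
  have hua0 := P1_ne_zero (P1_transcendental_sub hu a)
  obtain ⟨Z0, hZ0, hZ0u⟩ := RationalAux_exists_unique_zero hu htop
  obtain ⟨Zi, hZi, hZiu⟩ := RationalAux_exists_unique_zero
    (Fermat.Agent.S24.transcendental_inv hu) (by rw [Fermat.Agent.S24.adjoin_inv_eq, htop])
  obtain ⟨Za, hZa, hZau⟩ := RationalAux_exists_unique_zero (P1_transcendental_sub hu a)
    (by rw [RationalAux_adjoin_sub_const, htop])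
  have hZi' : Zi.ord u = -1 := by
    rw [Zi.ord_inv] at hZi
    omega
  have hZ0' : 0 < Z0.ord (u - algebraMap K E 0) := by
    rw [map_zero, sub_zero, hZ0]
    exact one_pos
  have hZa' : 0 < Za.ord (u - algebraMap K E a) := by
    rw [hZa]
    exact one_pos
  have hord0 : Z0.ord (u - algebraMap K E a) = 0 := P1_ord_sub_of_pos hu ha hZ0'
  have horda : Za.ord u = 0 := by
    have := P1_ord_sub_of_pos hu (b := 0) (fun h => ha h.symm) hZa'
    rwa [map_zero, sub_zero] at this
  have hordi : Zi.ord (u - algebraMap K E a) = -1 := by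
    rw [P1_ord_sub_of_neg a (by omega), hZi']
  have h0i : Z0 ≠ Zi := by
    rintro rfl
    omega
  have h0a : Z0 ≠ Za := by
    rintro rfl
    omega
  have hai : Za ≠ Zi := by
    rintro rfl
    omega
  have e0 : P1symb u (u - algebraMap K E a) Z0 = (Units.mk0 (-a) (neg_ne_zero.mpr ha))⁻¹ := by
    unfold P1symb
    rw [hZ0, hord0, mul_zero, zpow_zero, zpow_zero, zpow_one, one_mul, one_div, evU_inv]
    congr 1
    apply Units.ext
    rw [evU_val Z0 hua0 hord0, Units.val_mk0, P1_ev_sub_of_pos hu 0 a hZ0', zero_sub]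
  have ea : P1symb u (u - algebraMap K E a) Za = Units.mk0 a ha := by
    unfold P1symb
    rw [hZa, horda, zero_mul, zpow_zero, zpow_zero, zpow_one, one_mul, div_one]
    apply Units.ext
    have := P1_ev_sub_of_pos hu a 0 hZa'
    rw [map_zero, sub_zero, sub_zero] at this
    rw [evU_val Za hu0 horda, Units.val_mk0, this]
  have ei : P1symb u (u - algebraMap K E a) Zi = -1 := by
    unfold P1symb
    rw [hZi', hordi]
    have hw : u ^ (-1 : ℤ) / (u - algebraMap K E a) ^ (-1 : ℤ) = (u - algebraMap K E a) / u := by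
      rw [zpow_neg_one, zpow_neg_one]
      field_simp
    have hw0 : (u - algebraMap K E a) / u ≠ 0 := div_ne_zero hua0 hu0
    have hword : Zi.ord ((u - algebraMap K E a) / u) = 0 := by
      rw [ord_div Zi hua0 hu0, hordi, hZi']
      norm_num
    have hev : ev Zi ((u - algebraMap K E a) / u) = 1 := by
      rw [ev_eq_iff Zi ((mem_iff_ord Zi _).mpr (Or.inr hword.ge))]
      right
      have h1 : (u - algebraMap K E a) / u - algebraMap K E 1 = algebraMap K E (-a) / u := by
        rw [map_one, map_neg]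
        field_simp
        ring
      have h2 : algebraMap K E (-a) ≠ 0 := by
        rw [Ne, map_eq_zero, neg_eq_zero]
        exact ha
      rw [h1, ord_div Zi h2 hu0, ord_algebraMap, hZi']
      norm_num
    have hU : evU Zi ((u - algebraMap K E a) / u) = 1 := by
      apply Units.ext
      rw [evU_val Zi hw0 hword, hev, Units.val_one]
    rw [hw, hU]
    norm_num
  rw [P1T_eq_prod u (u - algebraMap K E a) {Z0, Za, Zi}, Finset.prod_insert, Finset.prod_pair hai,
    e0, ea, ei]
  · apply Units.ext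
    simp only [Units.val_mul, Units.val_inv_eq_inv_val, Units.val_mk0, Units.val_neg, Units.val_one]
    field_simp
  · rw [Finset.mem_insert, Finset.mem_singleton]
    tauto
  · intro Q hQ
    rw [Finset.mem_insert, Finset.mem_insert, Finset.mem_singleton]
    rcases P1_classify hu Q with h | ⟨b, hb⟩
    · right; right
      exact hZiu Q (by rw [Q.ord_inv]; omega)
    · by_cases hb0 : b = 0
      · left
        rw [hb0, map_zero, sub_zero] at hb
        exact hZ0u Q hb
      · by_cases hba : b = a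
        · right; left
          rw [hba] at hb
          exact hZau Q hb
        · exfalso
          have h1 := P1_ord_sub_of_pos hu (b := 0) (fun h => hb0 h.symm) hb
          rw [map_zero, sub_zero] at h1
          have h2 := P1_ord_sub_of_pos hu (b := a) (fun h => hba h.symm) hb
          tauto

theorem P1T_eq_one {u : E} (hu : Transcendental K u) (htop : K⟮u⟯ = ⊤) :
    ∀ h : E, h ≠ 0 → P1T (K := K) u h = 1 := by
  have hu0 := P1_ne_zero hu
  refine P1_induction hu htop (P := fun h => P1T (K := K) u h = 1) (fun c hc => P1T_const u hc)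
    (P1T_lin hu htop) (fun f g hf hg h1 h2 => ?_) (fun f hf h1 => ?_)
  · show P1T (K := K) u (f * g) = 1
    rw [P1T_mul hu0 hf hg, h1, h2, one_mul]
  · show P1T (K := K) u f⁻¹ = 1
    have h2 := P1T_mul (K := K) hu0 (inv_ne_zero hf) hf
    have h3 := P1T_const (K := K) u (one_ne_zero (α := K))
    rw [map_one] at h3
    rw [inv_mul_cancel₀ hf, h3, h1, mul_one] at h2
    exact h2.symm

theorem recip_rational {u : E} (hu : Transcendental K u) (htop : K⟮u⟯ = ⊤) {h : E} (hh : h ≠ 0)
    (hdisj : ∀ Q : Place K E, Q.ord h = 0 ∨ Q.ord u = 0) :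
    evD h (divOf (K := K) u) = evD u (divOf (K := K) h) := by
  have h1 := P1T_eq_one hu htop h hh
  rw [P1T_of_disj hdisj, div_eq_one] at h1
  exact h1.symm

end Fermat.Agent.S19.Weil
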