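import Fermat.Agent.S19.Weil.Proj
import Fermat.Agent.S19.Weil.P1
import Fermat.Agent.S19.Weil.FinDim

/-!
# S19 block W: Weil reciprocity `f(div g) = g(div f)` (assembly).
-/

set_option autoImplicit false

namespace Fermat.Agent.S19.Weil

open AlgebraicCurve Fermat.Agent.Lib.RR IntermediateField Fermat.Agent.GAL.FF

variable {K F : Type*} [Field K] [IsAlgClosed K] [CharZero K] [Field F] [Algebra K F] [IsFF K F]

theorem weil_reciprocity {f g : F} (hf : f ≠ 0) (hg : g ≠ 0)
    (h : ∀ P : Place K F, P.ord f = 0 ∨ P.ord g = 0) :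
    evD f (divOf (K := K) g) = evD g (divOf (K := K) f) := by
  by_cases hc : g ∈ Set.range (algebraMap K F)
  · obtain ⟨c, rfl⟩ := hc
    have hc0 : c ≠ 0 := by
      rintro rfl
      exact hg (map_zero _)
    rw [divOf_algebraMap, evD_zero]
    have h1 := evD_algebraMap_of_degree_eq_zero (F := F) (Units.mk0 c hc0)
      (D := divOf (K := K) f) (degree_divOf f)
    exact h1.symm
  · have htr : Transcendental K g := transcendental_of_not_mem_range hc
    have : FiniteDimensional K⟮g⟯ F := finiteDimensional_adjoin htr
    have : Algebra.IsSeparable K⟮g⟯ F := isSeparable_adjoin htr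
    have : IsFF K K⟮g⟯ := isFF_adjoin g htr
    set u : K⟮g⟯ := AdjoinSimple.gen K g with hu
    have hug : algebraMap K⟮g⟯ F u = g := AdjoinSimple.algebraMap_gen K g
    have hN0 : Algebra.norm K⟮g⟯ f ≠ 0 := Algebra.norm_ne_zero_iff.mpr hf
    have hpull : divOf (K := K) g = Divisor.pullback F (divOf (K := K) u) := by
      have h1 := divOf_algebraMap_eq_pullback (K := K) (F' := F) u
      rwa [hug] at h1
    have hdisj : Disj f (Divisor.pullback F (divOf (K := K) u)) := by
      refine ⟨hf, fun P hP => ?_⟩
      rw [← hpull, divOf_apply] at hP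
      exact (h P).resolve_right hP
    have hdisj' : ∀ Q : Place K K⟮g⟯, Q.ord (Algebra.norm K⟮g⟯ f) = 0 ∨ Q.ord u = 0 := by
      intro Q
      by_cases hQ : Q.ord u = 0
      · exact Or.inr hQ
      · left
        rw [ord_norm Q hf]
        apply Finset.sum_eq_zero
        intro P hP
        have hP' : P.restrict K⟮g⟯ = Q := Place.mem_fiber.mp hP
        refine (h P).resolve_right ?_
        have h2 := P.ord_algebraMap_ne_zero_of_restrict_eq hQ hP'
        rwa [hug] at h2
    rw [hpull, evD_pullback hdisj,
      recip_rational (RationalAux_transcendental_gen htr) (RationalAux_adjoin_gen g) hN0 hdisj',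
      divOf_norm hf, ← evD_algebraMap_eq, hug]

end Fermat.Agent.S19.Weil
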